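import Mathlib

/-!
# The series `∑ 1/(z+n)²`
-/

set_option autoImplicit false

open UpperHalfPlane hiding I I_re I_im
open Complex Filter Topology
open scoped Real

noncomputable section

namespace Fermat.Agent.Tor

/-- The function `v / (1 - v)²`. -/
def psi (v : ℂ) : ℂ := v / (1 - v) ^ 2

theorem psi_inv (v : ℂ) : psi v⁻¹ = psi v := by
  rcases eq_or_ne v 0 with rfl | hv
  · simp [psi]
  · by_cases h : v = 1
    · rw [h, inv_one]
    have h1 : (1 : ℂ) - v ≠ 0 := sub_ne_zero.mpr (Ne.symm h)
    have h2 : (1 : ℂ) - v⁻¹ ≠ 0 := by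
      intro h3
      apply h
      have h4 : v⁻¹ = 1 := by linear_combination -h3
      rwa [inv_eq_one] at h4
    have h3 : v - 1 ≠ 0 := sub_ne_zero.mpr h
    rw [psi, psi]
    field_simp
    ring

theorem hasSum_psi {v : ℂ} (hv : ‖v‖ < 1) : HasSum (fun d : ℕ => (d : ℂ) * v ^ d) (psi v) :=
  hasSum_coe_mul_geometric_of_norm_lt_one hv

theorem tsum_eq_psi_of_pos (z : ℍ) :
    ∑' n : ℤ, 1 / ((z : ℂ) + n) ^ 2 = (2 * π * I) ^ 2 * psi (cexp (2 * π * I * z)) := by
  have h := EisensteinSeries.qExpansion_identity (k := 1) le_rfl z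
  rw [h, ← (hasSum_psi (norm_exp_two_pi_I_lt_one z)).tsum_eq]
  simp only [pow_one, Nat.factorial_one, Nat.cast_one, div_one]
  ring

theorem summable_sq (z : ℂ) : Summable fun n : ℤ => 1 / (z + n) ^ 2 := by
  have h := EisensteinSeries.linear_right_summable z 1 (k := 2) le_rfl
  refine h.congr fun n => ?_
  rw [Int.cast_one, one_mul, one_div]
  norm_cast

theorem continuous_exp_aux : Continuous fun z : ℂ => cexp (2 * π * I * z) := by fun_prop

theorem exp_ne_one {z : ℂ} (hz : ∀ n : ℤ, z ≠ n) : cexp (2 * π * I * z) ≠ 1 := by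
  intro h
  rw [Complex.exp_eq_one_iff] at h
  obtain ⟨n, hn⟩ := h
  apply hz n
  have h0 : (2 * π * I : ℂ) ≠ 0 := Complex.two_pi_I_ne_zero
  have h1 : (2 * π * I : ℂ) * z = (2 * π * I) * n := by rw [hn]; ring
  exact mul_left_cancel₀ h0 h1

/-- **Lipschitz's formula** for the exponent `2`, everywhere. -/
theorem tsum_eq_psi {z : ℂ} (hz : ∀ n : ℤ, z ≠ n) :
    ∑' n : ℤ, 1 / (z + n) ^ 2 = (2 * π * I) ^ 2 * psi (cexp (2 * π * I * z)) := by
  rcases lt_trichotomy z.im 0 with h | h | h
  · have h1 := tsum_eq_psi_of_pos ⟨-z, by simpa using h⟩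
    have h2 : ∑' n : ℤ, 1 / (z + n) ^ 2 = ∑' n : ℤ, 1 / (-z + n) ^ 2 := by
      rw [← (Equiv.neg ℤ).tsum_eq]
      refine tsum_congr fun n => ?_
      rw [Equiv.neg_apply, Int.cast_neg]
      congr 1
      ring
    rw [h2]
    refine h1.trans ?_
    congr 1
    change psi (cexp (2 * π * I * -z)) = _
    rw [mul_neg, Complex.exp_neg, psi_inv]
  · -- the limit
    have hre : z = z.re := Complex.ext rfl (by rw [h, Complex.ofReal_im])
    have hL : Tendsto (fun t : ℝ => ∑' n : ℤ, 1 / ((z + t * I) + n) ^ 2) (𝓝[>] 0)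
        (𝓝 (∑' n : ℤ, 1 / (z + n) ^ 2)) := by
      refine tendsto_tsum_of_dominated_convergence (summable_sq z).norm (fun n => ?_) ?_
      · have hc : ContinuousAt (fun t : ℝ => 1 / ((z + t * I) + n) ^ 2) 0 := by
          refine ContinuousAt.div continuousAt_const (by fun_prop) ?_
          simp only [ofReal_zero, zero_mul, add_zero]
          refine pow_ne_zero 2 fun h0 => hz (-n) ?_
          rw [Int.cast_neg]
          linear_combination h0
        have := hc.tendsto.mono_left (nhdsWithin_le_nhds (s := Set.Ioi 0))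
        simpa using this
      · refine eventually_nhdsWithin_of_forall fun t _ n => ?_
        rw [norm_div, norm_div, norm_pow, norm_pow, norm_one]
        have h0 : 0 < ‖z + n‖ := by
          rw [norm_pos_iff]
          intro h0
          apply hz (-n)
          rw [Int.cast_neg]
          linear_combination h0
        have h1 : ‖z + n‖ ≤ ‖z + t * I + n‖ := by
          rw [Complex.norm_def, Complex.norm_def]
          apply Real.sqrt_le_sqrt
          rw [Complex.normSq_apply, Complex.normSq_apply]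
          simp only [add_re, add_im, mul_re, mul_im, ofReal_re, ofReal_im, Complex.I_re, Complex.I_im, intCast_re,
            intCast_im, h]
          nlinarith [sq_nonneg t]
        gcongr
    have hR : Tendsto (fun t : ℝ => (2 * π * I) ^ 2 * psi (cexp (2 * π * I * (z + t * I))))
        (𝓝[>] 0) (𝓝 ((2 * π * I) ^ 2 * psi (cexp (2 * π * I * z)))) := by
      have hc : ContinuousAt (fun t : ℝ =>
          (2 * π * I) ^ 2 * psi (cexp (2 * π * I * (z + t * I)))) 0 := by
        refine ContinuousAt.mul continuousAt_const ?_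
        unfold psi
        refine ContinuousAt.div (by fun_prop) (by fun_prop) ?_
        simp only [ofReal_zero, zero_mul, add_zero]
        exact pow_ne_zero 2 (sub_ne_zero.mpr (Ne.symm (exp_ne_one hz)))
      have := hc.tendsto.mono_left (nhdsWithin_le_nhds (s := Set.Ioi 0))
      simpa using this
    refine tendsto_nhds_unique hL (hR.congr' ?_)
    refine eventually_nhdsWithin_of_forall fun t ht => ?_
    have h1 := tsum_eq_psi_of_pos ⟨z + t * I, by
      simp only [add_im, mul_im, ofReal_re, ofReal_im, Complex.I_re, Complex.I_im, h]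
      simpa using ht⟩
    exact h1.symm
  · exact tsum_eq_psi_of_pos ⟨z, h⟩

/-- The value for `z = 0`. -/
theorem tsum_zero : ∑' n : ℤ, 1 / ((n : ℂ)) ^ 2 = (π : ℂ) ^ 2 / 3 := by
  have h2 : HasSum (fun n : ℕ => 1 / (n : ℂ) ^ 2) ((π : ℂ) ^ 2 / 6) := by
    have := Complex.hasSum_ofReal.mpr hasSum_zeta_two
    convert this using 1
    · ext n; push_cast; rfl
    · push_cast; rfl
  have h3 : HasSum (fun n : ℕ => 1 / ((n : ℂ) + 1) ^ 2) ((π : ℂ) ^ 2 / 6) := by
    have := (hasSum_nat_add_iff' 1).mpr h2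
    simpa using this
  have h4 : HasSum (fun n : ℤ => 1 / (n : ℂ) ^ 2) ((π : ℂ) ^ 2 / 6 + (π : ℂ) ^ 2 / 6) := by
    refine HasSum.of_nat_of_neg_add_one ?_ ?_
    · simpa using h2
    · convert h3 using 1
      ext n
      push_cast
      congr 1
      ring
  rw [h4.tsum_eq]
  ring

end Fermat.Agent.Tor
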