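import Fermat.Agent.Tor.Trans
import Fermat.Agent.LG.FrobRed
import Fermat.Prelude.Thm_ModularCurve_coeffMap_qExpand

/-!
# Expansions of the weight zero torsion functions
-/

set_option autoImplicit false

open UpperHalfPlane hiding I I_re I_im
open Complex Filter Topology ModularForm
open scoped Real PeriodPair Manifold MatrixGroups ModularForm

noncomputable section

namespace Fermat.Agent.Tor

open Fermat.Agent.ModFun
open Fermat.Agent.LG (qExpand_ofPowerSeries coeffMap_ofPowerSeries)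

local notation "ιZ" => (Int.castRingHom ℂ)

/-- The sixth Eisenstein series. -/
def eis6 : PowerSeries ℤ :=
  PowerSeries.mk fun n => if n = 0 then 1 else -504 * ∑ d ∈ n.divisors, (d : ℤ) ^ 5

theorem constantCoeff_eis6 : PowerSeries.constantCoeff eis6 = 1 := by
  rw [← PowerSeries.coeff_zero_eq_constantCoeff]
  simp [eis6]

/-- The inverse of the sixth Eisenstein series. -/
def eis6Inv : PowerSeries ℤ := eis6.invOfUnit 1

theorem eis6_mul_inv : eis6 * eis6Inv = 1 :=
  PowerSeries.mul_invOfUnit _ _ (by rw [constantCoeff_eis6]; rfl)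

/-- `(E₄ - E₆) / 12`. -/
def d12 : PowerSeries ℤ :=
  PowerSeries.mk fun n => 20 * ∑ d ∈ n.divisors, (d : ℤ) ^ 3 + 42 * ∑ d ∈ n.divisors, (d : ℤ) ^ 5

theorem constantCoeff_d12 : PowerSeries.constantCoeff d12 = 0 := by
  rw [← PowerSeries.coeff_zero_eq_constantCoeff]
  simp [d12]

theorem d12_spec : 12 * d12 = ModularCurve.eisenstein4 - eis6 := by
  ext n
  rw [show (12 : PowerSeries ℤ) = PowerSeries.C (12 : ℤ) from rfl, PowerSeries.coeff_C_mul,
    map_sub, d12, eis6, ModularCurve.eisenstein4, PowerSeries.coeff_mk, PowerSeries.coeff_mk,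
    PowerSeries.coeff_mk]
  split_ifs with h
  · subst h
    simp
  · ring

theorem hasExp_E₆ : HasExp ιZ (qN 1) E₆ (HahnSeries.ofPowerSeries ℤ ℤ eis6) := by
  refine hasExp_ofPowerSeries fun τ _ => ?_
  have h1 := ModularForm.hasSum_qExpansion (h := 1) one_pos (f := E₆) one_mem_strictPeriods_SL τ
  refine hasSum_congr' (fun n => ?_) h1
  rw [EisensteinSeries.E_qExpansion_coeff (by norm_num) (by decide)]
  simp only [eis6, PowerSeries.coeff_mk, qN_apply]
  split_ifs with h
  · simp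
  · rw [show bernoulli 6 = 1 / 42 by decide +kernel]
    rw [ArithmeticFunction.sigma_apply]
    simp only [eq_intCast, Int.cast_mul, Int.cast_sum, Int.cast_pow, Int.cast_natCast,
      Nat.cast_sum, Nat.cast_pow]
    norm_num

/-- The series of `1 / Δ`. -/
def dInv : LaurentSeries ℤ :=
  HahnSeries.single (-1 : ℤ) 1 * HahnSeries.ofPowerSeries ℤ ℤ ModularCurve.dedekindEtaUnitInv

theorem dInv_mul : dInv * dSeries = 1 := by
  rw [dInv, dSeries]
  have h1 : (HahnSeries.single (-1 : ℤ) (1 : ℤ) : LaurentSeries ℤ) *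
      HahnSeries.single (1 : ℤ) 1 = 1 := by
    rw [HahnSeries.single_mul_single]
    simp
  have h2 : (HahnSeries.ofPowerSeries ℤ ℤ ModularCurve.dedekindEtaUnit) *
      (HahnSeries.ofPowerSeries ℤ ℤ ModularCurve.dedekindEtaUnitInv) = 1 := by
    rw [← map_mul, ModularCurve.dedekindEtaUnit_mul_inv, map_one]
  calc _ = ((HahnSeries.single (-1 : ℤ) (1 : ℤ) : LaurentSeries ℤ) *
      HahnSeries.single (1 : ℤ) 1) * ((HahnSeries.ofPowerSeries ℤ ℤ ModularCurve.dedekindEtaUnit) *
      (HahnSeries.ofPowerSeries ℤ ℤ ModularCurve.dedekindEtaUnitInv)) := by ring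
    _ = 1 := by rw [h1, h2, one_mul]

theorem mdiff_inv_discriminant : MDiff (fun τ => (ModularForm.discriminant τ)⁻¹) := by
  have h := (mdiff_const 1).div mdiff_discriminant discriminant_ne_zero
  have h2 : (fun τ => (ModularForm.discriminant τ)⁻¹) =
      (fun _ : ℍ => (1 : ℂ)) / ModularForm.discriminant := by
    funext τ
    simp [one_div]
  rw [h2]
  exact h

theorem hasExp_inv_discriminant : HasExp ιZ (qN 1) (fun τ => (ModularForm.discriminant τ)⁻¹) dInv := by
  have hb : IsBoundedAtImInfty (fun τ => qN 1 τ ^ 1 * (ModularForm.discriminant τ)⁻¹) := by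
    have h2 : (fun τ : ℍ => qN 1 τ) =O[atImInfty] ModularForm.discriminant := by
      refine Asymptotics.IsBigO.trans ?_ exp_isBigO_discriminant
      refine Asymptotics.isBigO_of_le _ fun τ => ?_
      rw [qN_apply, Nat.cast_one, Function.Periodic.norm_qParam]
      rw [Real.norm_of_nonneg (Real.exp_nonneg _)]
      simp
    have h3 : IsBoundedAtImInfty (fun τ : ℍ => qN 1 τ / ModularForm.discriminant τ) :=
      (Asymptotics.div_isBoundedUnder_of_isBigO h2).isBigO_one ℝ
    refine h3.congr' (Filter.Eventually.of_forall fun τ => ?_) (Filter.EventuallyEq.refl _ _)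
    simp [div_eq_mul_inv]
  have hper : ∀ τ : ℍ, (ModularForm.discriminant (((1 : ℕ) : ℝ) +ᵥ τ))⁻¹ =
      (ModularForm.discriminant τ)⁻¹ := by
    intro τ
    rw [Nat.cast_one, ← modular_T_smul, discriminant_smul']
    simp [ModularGroup.T]
  obtain ⟨F, hF⟩ := exists_hasExp (N := 1) mdiff_inv_discriminant hper 1 hb
  have hφ : (RingHom.id ℂ).comp ιZ = ιZ := RingHom.id_comp _
  have h1 := hF.mul (hasExp_discriminant.coeffMap ιZ hφ)
  have h2 : HasExp (RingHom.id ℂ) (qN 1) ((fun τ => (ModularForm.discriminant τ)⁻¹) *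
      ModularForm.discriminant) (1 : LaurentSeries ℂ) := by
    refine hasExp_one.congr fun τ => ?_
    simp only [Pi.mul_apply, Pi.one_apply]
    exact (inv_mul_cancel₀ (discriminant_ne_zero τ)).symm
  have h3 := h1.unique Function.injective_id (isParam_qN 1) h2
  have h4 : ModularCurve.coeffMap ιZ dInv * ModularCurve.coeffMap ιZ dSeries = 1 := by
    rw [← map_mul, dInv_mul, map_one]
  have h5 : F = ModularCurve.coeffMap ιZ dInv := by
    calc F = F * (ModularCurve.coeffMap ιZ dInv * ModularCurve.coeffMap ιZ dSeries) := by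
          rw [h4, mul_one]
      _ = (F * ModularCurve.coeffMap ιZ dSeries) * ModularCurve.coeffMap ιZ dInv := by ring
      _ = _ := by rw [h3, one_mul]
  rw [h5] at hF
  exact (hasExp_coeffMap_iff ιZ hφ).1 hF

/-- The series of `E₄E₆/Δ`. -/
def eed : LaurentSeries ℤ :=
  HahnSeries.ofPowerSeries ℤ ℤ (ModularCurve.eisenstein4 * eis6) * dInv

theorem hasExp_eed : HasExp ιZ (qN 1) (fun τ => E₄ τ * E₆ τ / ModularForm.discriminant τ) eed := by
  have h := (hasExp_E₄.mul hasExp_E₆).mul hasExp_inv_discriminant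
  rw [← map_mul] at h
  refine h.congr fun τ => ?_
  simp only [Pi.mul_apply]
  rw [div_eq_mul_inv]

/-- The series of `E₆²/Δ`. -/
def ee6 : LaurentSeries ℤ := HahnSeries.ofPowerSeries ℤ ℤ (eis6 * eis6) * dInv

theorem ee6_eq : ee6 = ModularCurve.jqModC ℤ - HahnSeries.C 1728 := by
  have h := (hasExp_E₆.mul hasExp_E₆).mul hasExp_inv_discriminant
  rw [← map_mul] at h
  have h1 : HasExp ιZ (qN 1) (fun τ => J τ - 1728) (ModularCurve.jqModC ℤ - HahnSeries.C 1728) := by
    refine (hasExp_J.sub (HasExp.const (φ := ιZ) (1728 : ℤ))).congr fun τ => ?_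
    simp only [Pi.sub_apply, eq_intCast, Int.cast_ofNat]
  have e : ∀ τ, ((E₆ : ℍ → ℂ) * (E₆ : ℍ → ℂ) * fun τ => (ModularForm.discriminant τ)⁻¹) τ =
      J τ - 1728 := by
    intro τ
    rw [J_sub_1728, div_eq_mul_inv, pow_two]
    rfl
  have h2 := h.congr e
  unfold ee6
  exact HasExp.unique (φ := ιZ) Int.cast_injective (isParam_qN 1) h2 h1

variable {R : Type*} [CommRing R] {φ : R →+* ℂ}

/-- The series of the weight zero function. -/
def gSer (M : ℕ) [NeZero M] (X : PowerSeries R) : LaurentSeries R :=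
  (12 * HahnSeries.ofPowerSeries ℤ R X + 1) *
    ModularCurve.qExpand R M (ModularCurve.coeffMap (Int.castRingHom R) eed)

theorem hasExp_gSer {M : ℕ} [NeZero M] {f : ℍ → ℂ} {X : PowerSeries R}
    (h : HasExp φ (qN M) (fun τ => f τ - 1 / 12) (HahnSeries.ofPowerSeries ℤ R X)) :
    HasExp φ (qN M) (fun τ => f τ * kap τ) (gSer M X) := by
  have h1 : HasExp φ (qN 1) _ _ := hasExp_eed.coeffMap (Int.castRingHom R) (ψ := φ)
    (RingHom.ext_int _ _)
  have h2 := HasExp.level h1 M
  have h12 : HasExp φ (qN M) (fun _ => φ (12 : R)) (HahnSeries.C (12 : R) : LaurentSeries R) :=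
    HasExp.const 12
  have h3 := ((h12.mul h).add hasExp_one).mul h2
  rw [gSer, show (12 : LaurentSeries R) = HahnSeries.C (12 : R) from (map_ofNat _ 12).symm]
  refine h3.congr fun τ => ?_
  simp only [Pi.mul_apply, Pi.add_apply, Pi.one_apply, kap]
  rw [map_ofNat]
  ring

theorem coeffMap_gSer {S : Type*} [CommRing S] (g : R →+* S) {M : ℕ} [NeZero M] (X : PowerSeries R) :
    ModularCurve.coeffMap g (gSer M X) = gSer M (X.map g) := by
  rw [gSer, gSer, map_mul, map_add, map_mul, map_one, coeffMap_ofPowerSeries, map_ofNat,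
    ModularCurve.coeffMap_qExpand, ModularCurve.coeffMap_coeffMap,
    RingHom.ext_int (g.comp (Int.castRingHom R)) (Int.castRingHom S)]

/-- The power series at infinity. -/
def Xinf (ζ : Rˣ) (c : R) (i : ℕ) : PowerSeries R :=
  PowerSeries.C c + serS (fun n => n + 1) ((ζ ^ i : Rˣ) : R) +
    serS (fun n => n + 1) (((ζ ^ i)⁻¹ : Rˣ) : R) - 2 * serS (fun n => n + 1) 1

/-- The power series at zero. -/
def Xzer (N : ℕ) (i : ℕ) : PowerSeries ℤ :=
  serS (fun n => i + n * N) 1 + serS (fun n => (n + 1) * N - i) 1 - 2 * serS (fun n => (n + 1) * N) 1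

theorem ee_div (N i : ℕ) [NeZero N] : ee ((i / N : ℝ) : ℂ) =
    Complex.exp (2 * π * I / N) ^ i := by
  rw [ee, ← Complex.exp_nat_mul]
  congr 1
  push_cast
  ring

theorem exp_pow_ne_one {N i : ℕ} [NeZero N] (hi : 0 < i) (hiN : i < N) :
    Complex.exp (2 * π * I / N) ^ i ≠ 1 := fun h =>
  (Nat.not_dvd_of_pos_of_lt hi hiN) ((Complex.isPrimitiveRoot_exp N (NeZero.ne N)).dvd_of_pow_eq_one _ h)

theorem hasExp_gT_zero {N : ℕ} [NeZero N] {i : ℕ} (hi : 0 < i) (hiN : i < N) {ζ : Rˣ}
    (hζ : φ ζ = Complex.exp (2 * π * I / N)) {c : R}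
    (hc : c * (1 - (ζ : R) ^ i) ^ 2 = (ζ : R) ^ i) :
    HasExp φ (qN 1) (gT N 0 i) (gSer 1 (Xinf ζ c i)) := by
  refine (hasExp_gSer ?_).congr (f := fun τ => wpN τ ((i / N : ℝ) : ℂ) * kap τ) fun τ => ?_
  · have hne := exp_pow_ne_one hi hiN
    have hz : φ ((ζ ^ i : Rˣ) : R) = ee ((i / N : ℝ) : ℂ) := by
      rw [Units.val_pow_eq_pow_val, map_pow, hζ, ee_div]
    have hx : ee ((i / N : ℝ) : ℂ) ≠ 1 := by rwa [ee_div]
    have hcc : φ c = psi (ee ((i / N : ℝ) : ℂ)) := by
      have h1 := congrArg φ hc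
      rw [map_mul, map_pow, map_sub, map_one, map_pow, hζ, ← ee_div] at h1
      rw [psi, eq_div_iff (pow_ne_zero 2 (sub_ne_zero.mpr hx.symm))]
      exact h1
    have key := hasExp_wpN_zero (M := 1) (i / N : ℝ) hx (ζ ^ i) c hz hcc
    simpa only [Xinf, mul_one] using key
  · rw [gT, wpT]
    congr 2
    push_cast
    ring

theorem hasExp_gT_pos {N : ℕ} [NeZero N] {i : ℕ} (hi : 0 < i) (hiN : i < N) :
    HasExp φ (qN N) (gT N i 0) (gSer N ((Xzer N i).map (Int.castRingHom R))) := by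
  refine (hasExp_gSer ?_).congr
    (f := fun τ => wpN τ ((i : ℂ) / N * τ + (0 : ℝ)) * kap τ) fun τ => ?_
  · have h0 : φ ((1 : Rˣ) : R) = ee ((0 : ℝ) : ℂ) := by
      rw [Units.val_one, map_one, ee]
      simp
    have key := hasExp_wpN_pos (M := N) (a := i) hi hiN (0 : ℝ) (1 : Rˣ) h0
    rw [inv_one, Units.val_one] at key
    rw [Xzer]
    simp only [map_sub, map_add, map_mul, map_serS, map_one, map_ofNat]
    simpa only [map_sub, map_add, map_mul, map_ofNat] using key
  · rw [gT, wpT]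
    congr 2
    push_cast
    ring

end Fermat.Agent.Tor
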