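import Fermat.Agent.Tor.Poly
import Fermat.Agent.ModFun.Embed
import Fermat.Agent.LG.WSer

/-!
# The polynomial of the normalised `x`-coordinates of the torsion points
-/

set_option autoImplicit false

open UpperHalfPlane hiding I I_re I_im
open Complex Filter Topology ModularForm Polynomial
open scoped Real PeriodPair Manifold MatrixGroups ModularForm

noncomputable section

namespace Fermat.Agent.Tor

open Fermat.Agent.ModFun
open Fermat.Agent.LG (qExpand_ofPowerSeries coeffMap_ofPowerSeries Bez)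

section Tw

variable {F F' : Type*} [Field F] [Field F']

/-- The transform of a polynomial. -/
def tw (y : F) (n : ℕ) (G : F[X]) : F[X] := C ((12 * y)⁻¹ ^ n) * G.comp (C (12 * y) * X + C y)

theorem tw_map (f : F →+* F') (y : F) (n : ℕ) (G : F[X]) :
    (tw y n G).map f = tw (f y) n (G.map f) := by
  rw [tw, tw, Polynomial.map_mul, Polynomial.map_C, Polynomial.map_comp, Polynomial.map_add,
    Polynomial.map_mul, Polynomial.map_C, Polynomial.map_C, Polynomial.map_X, map_pow, map_inv₀,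
    map_mul, map_ofNat]

theorem tw_prod {β : Type*} [Fintype β] {y : F} (hy : y ≠ 0) (h12 : (12 : F) ≠ 0) {g x : β → F}
    (h : ∀ u, g u = (12 * x u + 1) * y) :
    tw y (Fintype.card β) (∏ u, (X - C (g u))) = ∏ u, (X - C (x u)) := by
  have h0 : (12 * y : F) ≠ 0 := mul_ne_zero h12 hy
  rw [tw, Polynomial.prod_comp]
  have h1 : ∀ u, (X - C (g u)).comp (C (12 * y) * X + C y) = C (12 * y) * (X - C (x u)) := by
    intro u
    rw [Polynomial.sub_comp, Polynomial.X_comp, Polynomial.C_comp, h]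
    simp only [map_mul, map_add, map_one]
    ring
  simp only [h1]
  rw [Finset.prod_mul_distrib, Finset.prod_const, Finset.card_univ, ← mul_assoc, ← map_pow,
    ← map_mul, ← mul_pow, inv_mul_cancel₀ h0, one_pow, map_one, one_mul]

end Tw

section XS

variable {R : Type*} [CommRing R]

/-- `E₄/E₆` -/
def a1 : PowerSeries ℤ := ModularCurve.eisenstein4 * eis6Inv

/-- `(E₄ - E₆)/(12 E₆)` -/
def a2 : PowerSeries ℤ := d12 * eis6Inv

/-- The normalised series. -/
def XS (M : ℕ) [NeZero M] (P : PowerSeries R) : PowerSeries R :=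
  P * (a1.expand M (NeZero.ne M)).map (Int.castRingHom R) +
    (a2.expand M (NeZero.ne M)).map (Int.castRingHom R)

theorem map_XS {S : Type*} [CommRing S] (g : R →+* S) (M : ℕ) [NeZero M] (P : PowerSeries R) :
    (XS M P).map g = XS M (P.map g) := by
  have h : ∀ Q : PowerSeries ℤ, (Q.map (Int.castRingHom R)).map g = Q.map (Int.castRingHom S) := by
    intro Q
    ext n
    rw [PowerSeries.coeff_map, PowerSeries.coeff_map, PowerSeries.coeff_map, ← RingHom.comp_apply,
      RingHom.ext_int (g.comp (Int.castRingHom R)) (Int.castRingHom S)]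
  rw [XS, XS, map_add, map_mul, h, h]

theorem constantCoeff_a1 : PowerSeries.constantCoeff a1 = 1 := by
  have h := congrArg PowerSeries.constantCoeff eis6_mul_inv
  rw [map_mul, constantCoeff_eis6, one_mul, map_one] at h
  rw [a1, map_mul, ModularCurve.constantCoeff_eisenstein4, one_mul, h]

theorem constantCoeff_a2 : PowerSeries.constantCoeff a2 = 0 := by
  rw [a2, map_mul, constantCoeff_d12, zero_mul]

theorem constantCoeff_expand (M : ℕ) [NeZero M] (Q : PowerSeries ℤ) :
    PowerSeries.constantCoeff (Q.expand M (NeZero.ne M)) = PowerSeries.constantCoeff Q := by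
  rw [← PowerSeries.coeff_zero_eq_constantCoeff_apply, ← PowerSeries.coeff_zero_eq_constantCoeff_apply]
  have := PowerSeries.coeff_expand_mul M (NeZero.ne M) Q 0
  rwa [mul_zero] at this

theorem constantCoeff_XS (M : ℕ) [NeZero M] (P : PowerSeries R) :
    PowerSeries.constantCoeff (XS M P) = PowerSeries.constantCoeff P := by
  have h : ∀ Q : PowerSeries ℤ, PowerSeries.constantCoeff
      ((Q.expand M (NeZero.ne M)).map (Int.castRingHom R)) =
      ((PowerSeries.constantCoeff Q : ℤ) : R) := by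
    intro Q
    rw [← PowerSeries.coeff_zero_eq_constantCoeff_apply, PowerSeries.coeff_map,
      PowerSeries.coeff_zero_eq_constantCoeff_apply, constantCoeff_expand]
    rfl
  rw [XS, map_add, map_mul, h, h, constantCoeff_a1, constantCoeff_a2, Int.cast_one, mul_one,
    Int.cast_zero, add_zero]

/-- the homomorphism -/
def thE (R : Type*) [CommRing R] (M : ℕ) [NeZero M] : PowerSeries ℤ →+* LaurentSeries R :=
  ((ModularCurve.qExpand R M).comp (ModularCurve.coeffMap (Int.castRingHom R))).comp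
    (HahnSeries.ofPowerSeries ℤ ℤ)

theorem thE_apply (M : ℕ) [NeZero M] (Q : PowerSeries ℤ) : thE R M Q =
    HahnSeries.ofPowerSeries ℤ R ((Q.expand M (NeZero.ne M)).map (Int.castRingHom R)) := by
  change ModularCurve.qExpand R M (ModularCurve.coeffMap (Int.castRingHom R)
    (HahnSeries.ofPowerSeries ℤ ℤ Q)) = _
  rw [coeffMap_ofPowerSeries, qExpand_ofPowerSeries, PowerSeries.map_expand]

theorem gSer_eq (M : ℕ) [NeZero M] (P : PowerSeries R) :
    gSer M P = (12 * HahnSeries.ofPowerSeries ℤ R (XS M P) + 1) *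
      ModularCurve.qExpand R M (ModularCurve.coeffMap (Int.castRingHom R) ee6) := by
  have h1 : ModularCurve.qExpand R M (ModularCurve.coeffMap (Int.castRingHom R) eed) =
      thE R M ModularCurve.eisenstein4 * thE R M eis6 *
        ModularCurve.qExpand R M (ModularCurve.coeffMap (Int.castRingHom R) dInv) := by
    rw [eed, map_mul, map_mul, map_mul, map_mul, map_mul]
    rfl
  have h2 : ModularCurve.qExpand R M (ModularCurve.coeffMap (Int.castRingHom R) ee6) =
      thE R M eis6 * thE R M eis6 *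
        ModularCurve.qExpand R M (ModularCurve.coeffMap (Int.castRingHom R) dInv) := by
    rw [ee6, map_mul, map_mul, map_mul, map_mul, map_mul]
    rfl
  have h3 : HahnSeries.ofPowerSeries ℤ R (XS M P) =
      HahnSeries.ofPowerSeries ℤ R P * (thE R M ModularCurve.eisenstein4 * thE R M eis6Inv) +
        thE R M d12 * thE R M eis6Inv := by
    rw [XS, map_add, map_mul, ← thE_apply, ← thE_apply, a1, a2, map_mul, map_mul]
  have h4 : thE R M eis6 * thE R M eis6Inv = 1 := by rw [← map_mul, eis6_mul_inv, map_one]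
  have h5 : 12 * thE R M d12 = thE R M ModularCurve.eisenstein4 - thE R M eis6 := by
    rw [← map_sub, ← d12_spec, map_mul, map_ofNat]
  rw [gSer, h1, h2, h3]
  linear_combination (-(12 * HahnSeries.ofPowerSeries ℤ R P * thE R M ModularCurve.eisenstein4 *
    thE R M eis6 * ModularCurve.qExpand R M (ModularCurve.coeffMap (Int.castRingHom R) dInv)) -
    12 * thE R M d12 * thE R M eis6 *
      ModularCurve.qExpand R M (ModularCurve.coeffMap (Int.castRingHom R) dInv)) * h4 -
    thE R M eis6 * ModularCurve.qExpand R M (ModularCurve.coeffMap (Int.castRingHom R) dInv) * h5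

theorem constantCoeff_Xinf (ζ : Rˣ) (c : R) (i : ℕ) :
    PowerSeries.constantCoeff (Xinf ζ c i) = c := by
  rw [Xinf, map_sub, map_add, map_add, map_mul, constantCoeff_serS,
    constantCoeff_serS, constantCoeff_serS, PowerSeries.constantCoeff_C]
  ring

theorem map_Xinf {S : Type*} [CommRing S] (g : R →+* S) (ζ : Rˣ) (c : R) (i : ℕ) :
    (Xinf ζ c i).map g = Xinf (Units.map (g : R →* S) ζ) (g c) i := by
  rw [Xinf, Xinf, map_sub, map_add, map_add, map_mul, map_serS, map_serS, map_serS, map_one,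
    PowerSeries.map_C, map_ofNat, ← map_pow, ← map_inv]
  rfl

theorem constantCoeff_Xzer (N i : ℕ) : PowerSeries.constantCoeff (Xzer N i) = 0 := by
  rw [Xzer, map_sub, map_add, map_mul, constantCoeff_serS, constantCoeff_serS,
    constantCoeff_serS]
  ring

end XS

theorem coeffMap_ee6 (R : Type*) [CommRing R] :
    ModularCurve.coeffMap (Int.castRingHom R) ee6 = ModularCurve.jqModC R - 1728 := by
  rw [ee6_eq, map_sub, coeffMap_jqModC, map_ofNat, map_ofNat]

section Main

variable {K : Type*} [Field K] [CharZero K] {N : ℕ} [NeZero N] {ι : K →+* ℂ} {ζ : Kˣ}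

/-- The constants. -/
def cK (ζ : Kˣ) (i : ℕ) : K := (ζ : K) ^ i / (1 - (ζ : K) ^ i) ^ 2

theorem cK_spec (hζ : ι ζ = Complex.exp (2 * π * I / N)) {i : ℕ} (hi : 0 < i) (hiN : i < N) :
    cK ζ i * (1 - (ζ : K) ^ i) ^ 2 = (ζ : K) ^ i := by
  rw [cK, div_mul_cancel₀]
  refine pow_ne_zero 2 (sub_ne_zero.mpr fun h => ?_)
  have h1 := congrArg ι h
  rw [map_one, map_pow, hζ] at h1
  exact exp_pow_ne_one hi hiN h1.symm

/-- The polynomial over Laurent series. -/
def GS (N : ℕ) [NeZero N] (ζ : Kˣ) : (LaurentSeries K)[X] :=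
  ∏ u : (ZMod N)ˣ, (X - C (gSer 1 (Xinf ζ (cK ζ (ZMod.val (u : ZMod N))) (ZMod.val (u : ZMod N)))))

theorem hasExp_gU (hN : 1 < N) (hζ : ι ζ = Complex.exp (2 * π * I / N)) (u : (ZMod N)ˣ) :
    HasExp ι (qN 1) (gU N u)
      (gSer 1 (Xinf ζ (cK ζ (ZMod.val (u : ZMod N))) (ZMod.val (u : ZMod N)))) :=
  hasExp_gT_zero (val_pos hN u) (ZMod.val_lt _) hζ (cK_spec hζ (val_pos hN u) (ZMod.val_lt _))

theorem hasExp_GS (hN : 1 < N) (hζ : ι ζ = Complex.exp (2 * π * I / N)) (k : ℕ) :
    HasExp ι (qN 1) ((GP N).coeff k) ((GS N ζ).coeff k) :=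
  hasExp_coeff_prod _ (fun u _ => hasExp_gU hN hζ u) k

theorem adjoin_le_F0 : IntermediateField.adjoin K {ModularCurve.jqModC K,
    ModularCurve.qExpand K N (ModularCurve.jqModC K)} ≤ F0 K N := by
  refine IntermediateField.adjoin_le_iff.mpr ?_
  intro x hx
  rcases hx with rfl | hx
  · exact IntermediateField.subset_adjoin _ _ jqModC_mem_gens
  · rw [Set.mem_singleton_iff] at hx
    subst hx
    exact IntermediateField.subset_adjoin _ _ ⟨N, inferInstance, dvd_rfl, rfl⟩

theorem GS_mem (hN : 1 < N) (hζ : ι ζ = Complex.exp (2 * π * I / N)) (k : ℕ) :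
    (GS N ζ).coeff k ∈ F0 K N :=
  adjoin_le_F0 (mem_adjoin_of_mem_holC (ι := ι)
    ⟨(GP N).coeff k, GP_coeff_mem hN k, GP_coeff_inv k, hasExp_GS hN hζ k⟩)

theorem exists_GF (hN : 1 < N) (hζ : ι ζ = Complex.exp (2 * π * I / N)) :
    ∃ G : (F0 K N)[X], G.map (algebraMap (F0 K N) (LaurentSeries K)) = GS N ζ := by
  rw [← Polynomial.mem_lifts, Polynomial.lifts_iff_coeff_lifts]
  intro k
  exact ⟨⟨_, GS_mem hN hζ k⟩, rfl⟩

/-- The polynomial over the function field. -/
def GF (hN : 1 < N) (hζ : ι ζ = Complex.exp (2 * π * I / N)) : (F0 K N)[X] :=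
  (exists_GF hN hζ).choose

theorem GF_map (hN : 1 < N) (hζ : ι ζ = Complex.exp (2 * π * I / N)) :
    (GF hN hζ).map (algebraMap (F0 K N) (LaurentSeries K)) = GS N ζ :=
  (exists_GF hN hζ).choose_spec

theorem GF_hasExp (hN : 1 < N) (hζ : ι ζ = Complex.exp (2 * π * I / N)) (k : ℕ) :
    HasExp ι (qN 1) ((GP N).coeff k) (((GF hN hζ).coeff k : F0 K N) : LaurentSeries K) := by
  have h := hasExp_GS (ι := ι) hN hζ k
  rw [← GF_map hN hζ, Polynomial.coeff_map] at h
  exact h

/-- **The polynomial of the normalised `x`-coordinates.** -/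
def HS (hN : 1 < N) (hζ : ι ζ = Complex.exp (2 * π * I / N)) : (F0 K N)[X] :=
  tw (jF K N - 1728) (Fintype.card (ZMod N)ˣ) (GF hN hζ)

theorem jF_sub_coe : algebraMap (F0 K N) (LaurentSeries K) (jF K N - 1728) =
    ModularCurve.coeffMap (Int.castRingHom K) ee6 := by
  rw [coeffMap_ee6, map_sub, map_ofNat]
  rfl

theorem ee6_ne_zero (R : Type*) [Field R] [CharZero R] :
    ModularCurve.coeffMap (Int.castRingHom R) ee6 ≠ 0 := by
  rw [coeffMap_ee6]
  intro h
  have h1 := congrArg (fun F : LaurentSeries R => F.coeff (-1)) h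
  have h2 := coeff_jqModC_pow_self' (R := R) 1
  rw [pow_one, Nat.cast_one] at h2
  have h3 : (1728 : LaurentSeries R).coeff (-1) = 0 := by
    rw [show (1728 : LaurentSeries R) = HahnSeries.C (1728 : R) from (map_ofNat _ _).symm]
    exact C_coeff_ne_zero (by norm_num)
  simp only [HahnSeries.coeff_sub, h2, h3, HahnSeries.coeff_zero, sub_zero] at h1
  exact one_ne_zero h1

theorem twelve_ne : (12 : LaurentSeries K) ≠ 0 := by
  intro h
  have h1 := congrArg (fun F : LaurentSeries K => F.coeff 0) h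
  rw [show (12 : LaurentSeries K) = HahnSeries.C (12 : K) from (map_ofNat _ _).symm] at h1
  simp at h1

/-- **The expansion at infinity.** -/
theorem HS_map (hN : 1 < N) (hζ : ι ζ = Complex.exp (2 * π * I / N)) :
    (HS hN hζ).map (algebraMap (F0 K N) (LaurentSeries K)) =
      ∏ u : (ZMod N)ˣ, (X - C (HahnSeries.ofPowerSeries ℤ K
        (XS 1 (Xinf ζ (cK ζ (ZMod.val (u : ZMod N))) (ZMod.val (u : ZMod N)))))) := by
  rw [HS, tw_map, GF_map, jF_sub_coe]
  refine tw_prod (ee6_ne_zero K) twelve_ne fun u => ?_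
  rw [gSer_eq, ModularCurve.qExpand_one_apply]

theorem HS_monic (hN : 1 < N) (hζ : ι ζ = Complex.exp (2 * π * I / N)) : (HS hN hζ).Monic := by
  rw [Function.Injective.monic_map_iff (algebraMap (F0 K N) (LaurentSeries K)).injective,
    HS_map hN hζ]
  exact Polynomial.monic_prod_of_monic _ _ fun x _ => Polynomial.monic_X_sub_C _

theorem HS_natDegree (hN : 1 < N) (hζ : ι ζ = Complex.exp (2 * π * I / N)) :
    (HS hN hζ).natDegree = Nat.totient N := by
  have h := Polynomial.natDegree_map (p := HS hN hζ) (algebraMap (F0 K N) (LaurentSeries K))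
  rw [← h, HS_map hN hζ, Polynomial.natDegree_finsetProd_X_sub_C_eq_card, Finset.card_univ,
    ZMod.card_units_eq_totient]

/-- The same with coefficients in a ring. -/
theorem HS_map_ring (hN : 1 < N) (hζ : ι ζ = Complex.exp (2 * π * I / N)) {R : Type*} [CommRing R]
    (g : R →+* K) {z : Rˣ} (hz : g z = ζ) {c : ℕ → R}
    (hc : ∀ i, 0 < i → i < N → c i * (1 - (z : R) ^ i) ^ 2 = (z : R) ^ i) :
    (HS hN hζ).map (algebraMap (F0 K N) (LaurentSeries K)) =
      ∏ u : (ZMod N)ˣ, (X - C (HahnSeries.ofPowerSeries ℤ K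
        ((XS 1 (Xinf z (c (ZMod.val (u : ZMod N))) (ZMod.val (u : ZMod N)))).map g))) := by
  rw [HS_map hN hζ]
  refine Finset.prod_congr rfl fun u _ => ?_
  have h1 := hc _ (val_pos hN u) (ZMod.val_lt _)
  have h2 := congrArg g h1
  rw [map_mul, map_pow, map_sub, map_one, map_pow, hz] at h2
  have h3 := cK_spec hζ (val_pos hN u) (ZMod.val_lt (u : ZMod N))
  have h4 : (1 - (ζ : K) ^ (ZMod.val (u : ZMod N))) ^ 2 ≠ 0 := by
    intro h
    rw [h, mul_zero] at h3
    exact pow_ne_zero _ ζ.ne_zero h3.symm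
  rw [map_XS, map_Xinf]
  have h5 : Units.map (g : R →* K) z = ζ := Units.ext hz
  rw [h5, mul_right_cancel₀ h4 (h2.trans h3.symm)]

theorem slash_gU (B : Bez N 1) (u : (ZMod N)ˣ) (τ : ℍ) :
    B.slash (gU N u) τ = gT N (ZMod.val (u : ZMod N) : ℤ) 0 (tri N 0 1 τ) := by
  rw [B.slash_apply, Bez.W, gU, gT_smul]
  have h1 : B.g0 1 0 = 1 := rfl
  have h2 : B.g0 1 1 = N * B.w := rfl
  have h3 : gT N (0 * B.g0 0 0 + (ZMod.val (u : ZMod N) : ℤ) * B.g0 1 0)
      (0 * B.g0 0 1 + (ZMod.val (u : ZMod N) : ℤ) * B.g0 1 1) =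
      gT N (ZMod.val (u : ZMod N) : ℤ) 0 := by
    rw [h1, h2]
    refine gT_congr (by simp) ⟨(ZMod.val (u : ZMod N) : ℤ) * B.w, by ring⟩
  rw [h3]

theorem hasExp_slash_gU (hN : 1 < N) (B : Bez N 1) (φ : K →+* ℂ) (u : (ZMod N)ˣ) :
    HasExp φ (qN 1) (B.slash (gU N u))
      (gSer N ((Xzer N (ZMod.val (u : ZMod N))).map (Int.castRingHom K))) := by
  have h1 : HasExp φ (qN N) (gT N (ZMod.val (u : ZMod N) : ℤ) 0)
      (gSer N ((Xzer N (ZMod.val (u : ZMod N))).map (Int.castRingHom K))) :=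
    hasExp_gT_pos (φ := φ) (val_pos hN u) (ZMod.val_lt _)
  have h2 := h1.qExpand (s' := qN 1) 1 (fun τ => tri N 0 1 τ) fun τ => by
    rw [pow_one, qN_eq_ee, qN_eq_ee, coe_tri]
    congr 1
    have : (N : ℂ) ≠ 0 := by exact_mod_cast NeZero.ne N
    push_cast
    field_simp
    simp
  rw [ModularCurve.qExpand_one_apply] at h2
  exact h2.congr fun τ => (slash_gU B u τ).symm

theorem hasExp_slash_GP (hN : 1 < N) (B : Bez N 1) (φ : K →+* ℂ) (k : ℕ) :
    HasExp φ (qN 1) (B.slash ((GP N).coeff k))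
      ((∏ u : (ZMod N)ˣ, (X - C (gSer N ((Xzer N (ZMod.val (u : ZMod N))).map
        (Int.castRingHom K))))).coeff k) := by
  have h1 : (GP N).map B.slash = ∏ u : (ZMod N)ˣ, (X - C (B.slash (gU N u))) := by
    rw [GP, Polynomial.map_prod]
    simp only [Polynomial.map_sub, Polynomial.map_X, Polynomial.map_C]
  rw [← Polynomial.coeff_map, h1]
  exact hasExp_coeff_prod _ (fun u _ => hasExp_slash_gU hN B φ u) k

theorem wF_GF (hN : 1 < N) (hζ : ι ζ = Complex.exp (2 * π * I / N)) (B : Bez N 1)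
    (hq : N.Prime) (hN1 : N = N * 1) :
    ((GF hN hζ).map (B.wF ι hq hN1 : F0 K N →+* F0 K N)).map
      (algebraMap (F0 K N) (LaurentSeries K)) =
      ∏ u : (ZMod N)ˣ, (X - C (gSer N ((Xzer N (ZMod.val (u : ZMod N))).map
        (Int.castRingHom K)))) := by
  ext1 k
  rw [Polynomial.coeff_map, Polynomial.coeff_map]
  have h1 := B.wF_hasExp hq hN1 (GF_hasExp hN hζ k)
    ((hasExp_slash_GP hN B ι k).coeffMap ι (RingHom.id_comp ι))
  exact (ModularCurve.coeffMap ι).injective h1

theorem wF_jF (B : Bez N 1) (hq : N.Prime) (hN1 : N = N * 1) :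
    algebraMap (F0 K N) (LaurentSeries K) (B.wF ι hq hN1 (jF K N - 1728)) =
      ModularCurve.qExpand K N (ModularCurve.coeffMap (Int.castRingHom K) ee6) := by
  have h1 : HasExp ι (qN 1) J ((jF K N : F0 K N) : LaurentSeries K) := hasExp_J' ι
  have h2 : B.slash J = Jd N := by
    funext τ
    rw [B.slash_apply, Bez.W, ModFun.J_smul]
    rfl
  have h3 := B.wF_hasExp hq hN1 h1 (z := ModularCurve.qExpand ℂ N (ModularCurve.jqModC ℂ)) (by
    rw [h2]; exact hasExp_Jd _)
  have h4 : ((B.wF ι hq hN1 (jF K N) : F0 K N) : LaurentSeries K) =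
      ModularCurve.qExpand K N (ModularCurve.jqModC K) := by
    apply (ModularCurve.coeffMap ι).injective
    rw [h3, ModularCurve.coeffMap_qExpand, coeffMap_jqModC]
  rw [coeffMap_ee6, map_sub, map_sub, map_sub, map_ofNat, map_ofNat, map_ofNat]
  congr 1

/-- **The expansion at zero.** -/
theorem HS_map_zero (hN : 1 < N) (hζ : ι ζ = Complex.exp (2 * π * I / N)) (B : Bez N 1)
    (hq : N.Prime) (hN1 : N = N * 1) :
    ((HS hN hζ).map (B.wF ι hq hN1 : F0 K N →+* F0 K N)).map
      (algebraMap (F0 K N) (LaurentSeries K)) =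
      ∏ u : (ZMod N)ˣ, (X - C (HahnSeries.ofPowerSeries ℤ K
        ((XS N (Xzer N (ZMod.val (u : ZMod N)))).map (Int.castRingHom K)))) := by
  rw [HS, tw_map, tw_map, wF_GF]
  have h1 : algebraMap (F0 K N) (LaurentSeries K)
      ((B.wF ι hq hN1 : F0 K N →+* F0 K N) (jF K N - 1728)) =
      ModularCurve.qExpand K N (ModularCurve.coeffMap (Int.castRingHom K) ee6) :=
    wF_jF B hq hN1
  rw [h1]
  have h2 : ModularCurve.qExpand K N (ModularCurve.coeffMap (Int.castRingHom K) ee6) ≠ 0 :=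
    (map_ne_zero_iff _ (ModularCurve.qExpand K N).injective).mpr (ee6_ne_zero K)
  refine tw_prod h2 twelve_ne fun u => ?_
  rw [gSer_eq, map_XS]

section Eval

open scoped IntermediateField.algebraAdjoinAdjoin

/-- Embeddings and expansions of conjugates. -/
theorem embF_of_hasExp {s : ℍ → ℂ} (D : ExpData ι N s)
    (hζ : ι ζ = Complex.exp (2 * π * I / N)) (x : XN N) {z : F0 K N} {f : ℍ → ℂ}
    (hf : HasExp ι (qN 1) f (z : LaurentSeries K)) {H : LaurentSeries ℂ}
    (hH : HasExp (RingHom.id ℂ) s (conjHom x f) H) : embF D hζ x z = H := by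
  obtain ⟨a, b, hb, hab⟩ := IsFractionRing.div_surjective (A := A0 K N) z
  have hb0 : b ≠ 0 := nonZeroDivisors.ne_zero hb
  have hb1 : algebraMap (A0 K N) (F0 K N) b ≠ 0 := by
    intro h
    exact hb0 ((IsFractionRing.to_map_eq_zero_iff (K := F0 K N)).mp h)
  rw [div_eq_iff hb1] at hab
  have h1 : (a : LaurentSeries K) = (z : LaurentSeries K) * (b : LaurentSeries K) :=
    congrArg (fun y : F0 K N => (y : LaurentSeries K)) hab
  have ha := ev_hasExp ι N (Subalgebra.inclusion (adjoin_le_holAlg hζ) a)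
  have hb' := ev_hasExp ι N (Subalgebra.inclusion (adjoin_le_holAlg hζ) b)
  have h2 : ev ι N (Subalgebra.inclusion (adjoin_le_holAlg hζ) a) =
      f * ev ι N (Subalgebra.inclusion (adjoin_le_holAlg hζ) b) := by
    refine ha.fun_unique (qN_ne_zero 1) ?_
    have h3 : ((Subalgebra.inclusion (adjoin_le_holAlg hζ) a : holAlg ι N) : LaurentSeries K) =
        (z : LaurentSeries K) * ((Subalgebra.inclusion (adjoin_le_holAlg hζ) b : holAlg ι N) :
          LaurentSeries K) := h1
    rw [h3]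
    exact hf.mul hb'
  have h3 := embA_spec D hζ x a
  rw [h2, map_mul] at h3
  have h4 := hH.mul (embA_spec D hζ x b)
  have h5 := h3.unique Function.injective_id D.isParam h4
  have h6 := congrArg (embF D hζ x) hab
  rw [map_mul, embF_algebraMap, embF_algebraMap, h5] at h6
  refine (mul_right_cancel₀ ?_ h6).symm
  intro h7
  exact hb0 (embA_injective D hζ x (h7.trans (map_zero _).symm))

/-- The value of the normalised `x`-coordinate. -/
def Xval (τ : ℍ) (z : ℂ) : ℂ := wpN τ z * (E₄ τ / E₆ τ) - 1 / 12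

/-- The power series at a point. -/
def XD (N : ℕ) (τ₀ : ℍ) (a b : ℤ) : PowerSeries ℂ :=
  PowerSeries.C (1 / 12) *
    (dExp τ₀ (gT N a b) * (dExp τ₀ (fun τ => J τ - 1728))⁻¹ - 1)

theorem constantCoeff_XD (N : ℕ) {τ₀ : ℍ} (h : J τ₀ ≠ 1728) (a b : ℤ) :
    PowerSeries.constantCoeff (XD N τ₀ a b) = Xval τ₀ (((a : ℂ) * τ₀ + b) / N) := by
  have h6 : E₆ τ₀ ≠ 0 := by
    intro h0
    have := J_sub_1728 τ₀
    rw [h0] at this
    apply h
    have h1 : J τ₀ - 1728 = 0 := by rw [this]; simp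
    exact sub_eq_zero.mp h1
  have hD := discriminant_ne_zero τ₀
  rw [XD, map_mul, PowerSeries.constantCoeff_C, map_sub, map_mul, map_one, constantCoeff_dExp,
    PowerSeries.constantCoeff_inv, constantCoeff_dExp, J_sub_1728, gT, wpT, kap, Xval]
  field_simp

/-- **The expansion at a point.** -/
theorem HS_map_point (hN : 1 < N) (hζ : ι ζ = Complex.exp (2 * π * I / N)) {τ₀ : ℍ}
    (hτ : J τ₀ ≠ 1728) (x : XN N) :
    (HS hN hζ).map (embF (expData_sD τ₀) hζ x) =
      ∏ u : (ZMod N)ˣ, (X - C (HahnSeries.ofPowerSeries ℤ ℂ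
        (XD N τ₀ ((ZMod.val (u : ZMod N) : ℤ) * ((Quotient.out x)⁻¹ : SL(2, ℤ)) 1 0)
          ((ZMod.val (u : ZMod N) : ℤ) * ((Quotient.out x)⁻¹ : SL(2, ℤ)) 1 1)))) := by
  have hJ : MDiff (fun τ : ℍ => J τ - 1728) := mdiff_J.sub (mdiff_const 1728)
  have hy : embF (expData_sD τ₀) hζ x (jF K N - 1728) =
      HahnSeries.ofPowerSeries ℤ ℂ (dExp τ₀ (fun τ => J τ - 1728)) := by
    have h1 : HasExp ι (qN 1) (fun τ => J τ - 1728) ((jF K N - 1728 : F0 K N) : LaurentSeries K) := by
      refine ((hasExp_J' ι).sub (HasExp.const (φ := ι) (1728 : K))).congr fun τ => ?_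
      simp only [Pi.sub_apply, map_ofNat]
    refine embF_of_hasExp _ hζ x h1 ?_
    refine (hasExp_dExp τ₀ hJ).congr fun τ => ?_
    rw [conjHom_apply, ModFun.J_smul]
  have hc0 : PowerSeries.constantCoeff (dExp τ₀ (fun τ => J τ - 1728)) ≠ 0 := by
    rw [constantCoeff_dExp]
    exact sub_ne_zero.mpr hτ
  have hG : (GF hN hζ).map (embF (expData_sD τ₀) hζ x) =
      ∏ u : (ZMod N)ˣ, (X - C (HahnSeries.ofPowerSeries ℤ ℂ (dExp τ₀
        (gT N ((ZMod.val (u : ZMod N) : ℤ) * ((Quotient.out x)⁻¹ : SL(2, ℤ)) 1 0)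
          ((ZMod.val (u : ZMod N) : ℤ) * ((Quotient.out x)⁻¹ : SL(2, ℤ)) 1 1))))) := by
    ext1 k
    rw [Polynomial.coeff_map]
    refine embF_of_hasExp _ hζ x (GF_hasExp hN hζ k) ?_
    have h1 : (GP N).map (conjHom x) = ∏ u : (ZMod N)ˣ, (X - C (conjHom x (gU N u))) := by
      rw [GP, Polynomial.map_prod]
      simp only [Polynomial.map_sub, Polynomial.map_X, Polynomial.map_C]
    rw [← Polynomial.coeff_map, h1]
    refine hasExp_coeff_prod _ (fun u _ => ?_) k
    have h2 := not_dvd_smul (not_dvd_val hN u) (Quotient.out x)⁻¹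
    rw [zero_mul, zero_mul, zero_add, zero_add] at h2
    refine (hasExp_dExp τ₀ (mdiff_gT h2)).congr fun τ => ?_
    rw [conjHom_apply, gU, gT_smul, zero_mul, zero_mul, zero_add, zero_add]
  rw [HS, tw_map, hy, hG]
  have hy0 : HahnSeries.ofPowerSeries ℤ ℂ (dExp τ₀ (fun τ => J τ - 1728)) ≠ 0 := by
    intro h
    rw [← map_zero (HahnSeries.ofPowerSeries ℤ ℂ)] at h
    have h1 := HahnSeries.ofPowerSeries_injective h
    rw [h1, map_zero] at hc0
    exact hc0 rfl
  refine tw_prod hy0 twelve_ne fun u => ?_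
  rw [XD, map_mul, map_sub, map_mul, map_one, PowerSeries.C_eq_algebraMap]
  have h12 : (12 : LaurentSeries ℂ) * HahnSeries.ofPowerSeries ℤ ℂ
      (algebraMap ℂ (PowerSeries ℂ) (1 / 12)) = 1 := by
    have h1 : (12 : LaurentSeries ℂ) = HahnSeries.ofPowerSeries ℤ ℂ
      (algebraMap ℂ (PowerSeries ℂ) 12) := by
      rw [map_ofNat, map_ofNat]
    rw [h1, ← map_mul, ← map_mul]
    norm_num
  have hinv : HahnSeries.ofPowerSeries ℤ ℂ (dExp τ₀ (fun τ => J τ - 1728))⁻¹ *
      HahnSeries.ofPowerSeries ℤ ℂ (dExp τ₀ (fun τ => J τ - 1728)) = 1 := by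
    rw [← map_mul, PowerSeries.inv_mul_cancel _ hc0, map_one]
  rw [← mul_assoc, h12, one_mul, sub_add_cancel, mul_assoc, hinv, mul_one]

end Eval

end Main

end Fermat.Agent.Tor
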