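import Fermat.Agent.Tor.Exp
import Fermat.Agent.ModFun.GenDegree

/-!
# The polynomial of the torsion values
-/

set_option autoImplicit false

open UpperHalfPlane hiding I I_re I_im
open Complex Filter Topology ModularForm
open scoped Real PeriodPair Manifold MatrixGroups ModularForm

noncomputable section

namespace Fermat.Agent.Tor

open Fermat.Agent.ModFun

theorem mdiff_kap : MDiff kap := by
  have h := (mdiff_const 12).mul ((mdiff_E₄.mul mdiff_E₆).div mdiff_discriminant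
    discriminant_ne_zero)
  exact h

theorem mdiff_mul_kap {R : Type*} [CommRing R] {φ : R →+* ℂ} {M : ℕ} [NeZero M] {f : ℍ → ℂ}
    {X : PowerSeries R}
    (h : HasExp φ (qN M) (fun τ => f τ - 1 / 12) (HahnSeries.ofPowerSeries ℤ R X)) :
    MDiff (fun τ => f τ * kap τ) := by
  have h1 := mdiff_of_hasExp h
  have h2 : MDiff f := by
    have h3 := h1.add (mdiff_const (1 / 12))
    have h4 : f = (fun τ => f τ - 1 / 12) + fun _ : ℍ => (1 / 12 : ℂ) := by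
      funext τ
      simp
    rw [h4]
    exact h3
  exact h2.mul mdiff_kap

section Level

variable {N : ℕ} [NeZero N]

theorem gT_aux {a b : ℤ} (h : ¬ ((N : ℤ) ∣ a ∧ (N : ℤ) ∣ b)) :
    ∃ (f : ℍ → ℂ) (X : PowerSeries ℂ), gT N a b = (fun τ => f τ * kap τ) ∧
      HasExp (RingHom.id ℂ) (qN N) (fun τ => f τ - 1 / 12) (HahnSeries.ofPowerSeries ℤ ℂ X) := by
  have hN : (0 : ℤ) < N := by exact_mod_cast Nat.pos_of_ne_zero (NeZero.ne N)
  have hNC : (N : ℂ) ≠ 0 := by exact_mod_cast NeZero.ne N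
  obtain ⟨a', ha'⟩ := Int.eq_ofNat_of_zero_le (Int.emod_nonneg a hN.ne')
  obtain ⟨b', hb'⟩ := Int.eq_ofNat_of_zero_le (Int.emod_nonneg b hN.ne')
  have haN : a' < N := by
    have := Int.emod_lt_of_pos a hN
    omega
  have hbN : b' < N := by
    have := Int.emod_lt_of_pos b hN
    omega
  have e1 : (N : ℤ) ∣ a - a' := by
    rw [← ha']
    exact Int.dvd_self_sub_emod
  have e2 : (N : ℤ) ∣ b - b' := by
    rw [← hb']
    exact Int.dvd_self_sub_emod
  rw [gT_congr e1 e2]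
  have hu : (RingHom.id ℂ) ((Units.mk0 (ee ((b' / N : ℝ) : ℂ)) (ee_ne_zero _) : ℂˣ) : ℂ) =
      ee ((b' / N : ℝ) : ℂ) := rfl
  rcases Nat.eq_zero_or_pos a' with h0 | h0
  · subst h0
    have hb0 : 0 < b' := by
      rcases Nat.eq_zero_or_pos b' with h1 | h1
      · exfalso
        apply h
        rw [h1] at e2
        exact ⟨by simpa using e1, by simpa using e2⟩
      · exact h1
    have hx : ee ((b' / N : ℝ) : ℂ) ≠ 1 := by
      rw [ee_div]
      exact exp_pow_ne_one hb0 hbN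
    refine ⟨fun τ => wpN τ ((b' / N : ℝ) : ℂ), _, ?_,
      hasExp_wpN_zero (M := N) (b' / N : ℝ) hx (Units.mk0 (ee ((b' / N : ℝ) : ℂ)) (ee_ne_zero _))
        _ hu rfl⟩
    funext τ
    rw [gT, wpT]
    congr 2
    push_cast
    ring
  · refine ⟨fun τ => wpN τ ((a' : ℂ) / N * τ + ((b' / N : ℝ) : ℂ)), _, ?_,
      hasExp_wpN_pos (M := N) h0 haN (b' / N : ℝ) (Units.mk0 (ee ((b' / N : ℝ) : ℂ)) (ee_ne_zero _))
        hu⟩
    funext τ
    rw [gT, wpT]
    congr 2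
    push_cast
    field_simp

theorem mdiff_gT {a b : ℤ} (h : ¬ ((N : ℤ) ∣ a ∧ (N : ℤ) ∣ b)) : MDiff (gT N a b) := by
  obtain ⟨f, X, h1, h2⟩ := gT_aux h
  rw [h1]
  exact mdiff_mul_kap h2

theorem exists_hasExp_gT {a b : ℤ} (h : ¬ ((N : ℤ) ∣ a ∧ (N : ℤ) ∣ b)) :
    ∃ F : LaurentSeries ℂ, HasExp (RingHom.id ℂ) (qN N) (gT N a b) F := by
  obtain ⟨f, X, h1, h2⟩ := gT_aux h
  rw [h1]
  exact ⟨_, hasExp_gSer h2⟩

theorem not_dvd_smul {a b : ℤ} (h : ¬ ((N : ℤ) ∣ a ∧ (N : ℤ) ∣ b)) (γ : SL(2, ℤ)) :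
    ¬ ((N : ℤ) ∣ a * γ 0 0 + b * γ 1 0 ∧ (N : ℤ) ∣ a * γ 0 1 + b * γ 1 1) := by
  rintro ⟨h1, h2⟩
  have hdet := γ.det_coe
  rw [Matrix.det_fin_two] at hdet
  apply h
  constructor
  · have h3 := (h1.mul_right (γ 1 1)).sub (h2.mul_right (γ 1 0))
    have h4 : (a * γ 0 0 + b * γ 1 0) * γ 1 1 - (a * γ 0 1 + b * γ 1 1) * γ 1 0 = a := by
      linear_combination a * hdet
    rwa [h4] at h3
  · have h3 := (h2.mul_right (γ 0 0)).sub (h1.mul_right (γ 0 1))
    have h4 : (a * γ 0 1 + b * γ 1 1) * γ 0 0 - (a * γ 0 0 + b * γ 1 0) * γ 0 1 = b := by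
      linear_combination b * hdet
    rwa [h4] at h3

theorem gT_mem_modFun {a b : ℤ} (h : ¬ ((N : ℤ) ∣ a ∧ (N : ℤ) ∣ b)) :
    gT N a b ∈ modFun (RingHom.id ℂ) N := by
  refine ⟨mdiff_gT h, fun γ => ?_⟩
  obtain ⟨F, hF⟩ := exists_hasExp_gT (not_dvd_smul h γ)
  exact ⟨F, hF.congr fun τ => (gT_smul a b γ τ).symm⟩

/-- The functions indexed by units. -/
def gU (N : ℕ) [NeZero N] (u : (ZMod N)ˣ) : ℍ → ℂ := gT N 0 (ZMod.val (u : ZMod N) : ℤ)

theorem val_pos (hN : 1 < N) (u : (ZMod N)ˣ) : 0 < ZMod.val (u : ZMod N) := by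
  have : Fact (1 < N) := ⟨hN⟩
  rw [Nat.pos_iff_ne_zero, Ne, ZMod.val_eq_zero]
  exact Units.ne_zero u

theorem not_dvd_val (hN : 1 < N) (u : (ZMod N)ˣ) :
    ¬ ((N : ℤ) ∣ 0 ∧ (N : ℤ) ∣ (ZMod.val (u : ZMod N) : ℤ)) := by
  rintro ⟨-, h⟩
  have h1 : N ∣ ZMod.val (u : ZMod N) := by exact_mod_cast h
  exact Nat.not_dvd_of_pos_of_lt (val_pos hN u) (ZMod.val_lt _) h1

theorem gU_mem (hN : 1 < N) (u : (ZMod N)ˣ) : gU N u ∈ modFun (RingHom.id ℂ) N :=
  gT_mem_modFun (not_dvd_val hN u)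

theorem gU_congr {b : ℤ} {u : (ZMod N)ˣ} (h : (b : ZMod N) = u) : gT N 0 b = gU N u := by
  rw [gU]
  refine gT_congr (by simp) ?_
  rw [← ZMod.intCast_zmod_eq_zero_iff_dvd]
  push_cast
  rw [h, ZMod.natCast_zmod_val, sub_self]

/-- The polynomial. -/
def GP (N : ℕ) [NeZero N] : Polynomial (ℍ → ℂ) :=
  ∏ u : (ZMod N)ˣ, (Polynomial.X - Polynomial.C (gU N u))

theorem GP_coeff_mem (hN : 1 < N) (k : ℕ) : (GP N).coeff k ∈ modFun (RingHom.id ℂ) N := by
  have h1 : GP N = (∏ u : (ZMod N)ˣ, (Polynomial.X -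
      Polynomial.C (⟨gU N u, gU_mem hN u⟩ : modFun (RingHom.id ℂ) N))).map
        (modFun (RingHom.id ℂ) N).subtype := by
    rw [Polynomial.map_prod]
    simp [GP]
  rw [h1, Polynomial.coeff_map]
  exact Subtype.mem _

theorem gU_smul {γ : SL(2, ℤ)} {δ : (ZMod N)ˣ} (h0 : (γ 1 0 : ZMod N) = 0)
    (h1 : (γ 1 1 : ZMod N) = δ) (u : (ZMod N)ˣ) (τ : ℍ) : gU N u (γ • τ) = gU N (u * δ) τ := by
  rw [gU, gT_smul]
  have e : gT N (0 * γ 0 0 + (ZMod.val (u : ZMod N) : ℤ) * γ 1 0)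
      (0 * γ 0 1 + (ZMod.val (u : ZMod N) : ℤ) * γ 1 1) =
      gT N 0 ((ZMod.val (u : ZMod N) : ℤ) * γ 1 1) := by
    refine gT_congr ?_ (by simp)
    rw [ZMod.intCast_zmod_eq_zero_iff_dvd] at h0
    rw [zero_mul, zero_add, sub_zero]
    exact h0.mul_left _
  rw [e, gU_congr (u := u * δ)]
  push_cast
  rw [ZMod.natCast_zmod_val, h1]

theorem exists_unit {γ : SL(2, ℤ)} (hγ : γ ∈ CongruenceSubgroup.Gamma0 N) :
    (γ 1 0 : ZMod N) = 0 ∧ ∃ δ : (ZMod N)ˣ, (γ 1 1 : ZMod N) = δ := by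
  rw [CongruenceSubgroup.Gamma0_mem] at hγ
  refine ⟨hγ, ?_⟩
  have hdet := γ.det_coe
  rw [Matrix.det_fin_two] at hdet
  have h2 : ((γ 0 0 * γ 1 1 - γ 0 1 * γ 1 0 : ℤ) : ZMod N) = ((1 : ℤ) : ZMod N) := by rw [hdet]
  push_cast at h2
  rw [hγ, mul_zero, sub_zero] at h2
  exact ⟨⟨γ 1 1, γ 0 0, by rw [mul_comm]; exact h2, h2⟩, rfl⟩

theorem GP_coeff_inv (k : ℕ) : IsInv N ((GP N).coeff k) := by
  intro γ hγ τ
  obtain ⟨h0, δ, h1⟩ := exists_unit hγ
  have h2 : (GP N).map (pullHom γ) = GP N := by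
    rw [GP, Polynomial.map_prod]
    have h3 : ∀ u : (ZMod N)ˣ, (Polynomial.X - Polynomial.C (gU N u)).map (pullHom γ) =
        Polynomial.X - Polynomial.C (gU N (u * δ)) := by
      intro u
      rw [Polynomial.map_sub, Polynomial.map_X, Polynomial.map_C]
      congr 2
      funext τ
      exact gU_smul h0 h1 u τ
    simp only [h3]
    exact Fintype.prod_equiv (Equiv.mulRight δ) _ _ (fun x => rfl)
  have h3 := congrArg (fun p : Polynomial (ℍ → ℂ) => p.coeff k τ) h2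
  simp only [Polynomial.coeff_map] at h3
  exact h3

end Level

/-- Expansions of polynomials. -/
theorem hasExp_coeff_prod {R : Type*} [CommRing R] {φ : R →+* ℂ} {s : ℍ → ℂ} {β : Type*}
    (t : Finset β) {f : β → ℍ → ℂ} {F : β → LaurentSeries R}
    (h : ∀ i ∈ t, HasExp φ s (f i) (F i)) (k : ℕ) :
    HasExp φ s ((∏ i ∈ t, (Polynomial.X - Polynomial.C (f i))).coeff k)
      ((∏ i ∈ t, (Polynomial.X - Polynomial.C (F i))).coeff k) := by
  classical
  induction t using Finset.induction_on generalizing k with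
  | empty =>
    rw [Finset.prod_empty, Finset.prod_empty, Polynomial.coeff_one, Polynomial.coeff_one]
    split_ifs
    · exact hasExp_one
    · exact hasExp_zero
  | insert a t ha ih =>
    rw [Finset.prod_insert ha, Finset.prod_insert ha, sub_mul, sub_mul, Polynomial.coeff_sub,
      Polynomial.coeff_sub, Polynomial.coeff_C_mul, Polynomial.coeff_C_mul]
    have h1 := h a (Finset.mem_insert_self _ _)
    have h2 := fun k => ih (fun i hi => h i (Finset.mem_insert_of_mem hi)) k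
    refine HasExp.sub ?_ (h1.mul (h2 k))
    rcases k with - | k
    · rw [Polynomial.coeff_X_mul_zero, Polynomial.coeff_X_mul_zero]
      exact hasExp_zero
    · rw [Polynomial.coeff_X_mul, Polynomial.coeff_X_mul]
      exact h2 k

end Fermat.Agent.Tor
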