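import Fermat.Agent.Tor.Wp
import Fermat.Agent.ModFun.Expand
import Fermat.Agent.ModFun.JFun

/-!
# Expansions of the torsion values
-/

set_option autoImplicit false

open UpperHalfPlane hiding I I_re I_im
open Complex Filter Topology
open scoped Real PeriodPair

noncomputable section

namespace Fermat.Agent.Tor

open Fermat.Agent.ModFun

section Fiber

variable {R : Type*} [CommRing R] {φ : R →+* ℂ} {s : ℍ → ℂ} {f : ℍ → ℂ}

theorem hasExp_of_hasSum {β : Type*} (c : β → R) (e : β → ℕ) (T : ℕ → Finset β)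
    (hT : ∀ b, c b ≠ 0 → b ∈ T (e b))
    (h : ∀ τ, s τ ≠ 0 → HasSum (fun b => φ (c b) * s τ ^ e b) (f τ)) :
    HasExp φ s f (HahnSeries.ofPowerSeries ℤ R (PowerSeries.mk fun k =>
      ∑ b ∈ (T k).filter (fun b => e b = k), c b)) := by
  classical
  refine hasExp_ofPowerSeries fun τ hτ => ?_
  refine HasSum.congr2 ((h τ hτ).tsum_fiberwise e) (fun k => ?_) rfl
  rw [PowerSeries.coeff_mk]
  have h1 : ∀ b : (e ⁻¹' {k} : Set β), φ (c b) * s τ ^ e (b : β) = φ (c b) * s τ ^ k := by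
    intro b
    rw [show e (b : β) = k from b.2]
  rw [tsum_congr h1, tsum_mul_right]
  congr 1
  rw [map_sum, tsum_subtype (e ⁻¹' {k}) (fun b => φ (c b))]
  rw [tsum_eq_sum (s := (T k).filter (fun b => e b = k))]
  · refine Finset.sum_congr rfl fun b hb => ?_
    rw [Finset.mem_filter] at hb
    rw [Set.indicator_of_mem (show b ∈ e ⁻¹' {k} from hb.2)]
  · intro b hb
    by_cases hk : e b = k
    · rw [Set.indicator_of_mem (show b ∈ e ⁻¹' {k} from hk)]
      by_contra h0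
      have hc : c b ≠ 0 := fun h1 => h0 (by rw [h1, map_zero])
      apply hb
      rw [Finset.mem_filter]
      exact ⟨hk ▸ hT b hc, hk⟩
    · rw [Set.indicator_of_notMem]
      exact hk

end Fiber

section Double

variable {α : ℕ → ℕ} (hα : ∀ n, n + 1 ≤ α n)

include hα in
theorem summable_double {v w : ℂ} (hv : ‖v‖ ≤ 1) (hw : ‖w‖ < 1) :
    Summable fun p : ℕ × ℕ => (p.2 : ℂ) * (v * w ^ α p.1) ^ p.2 := by
  have h1 : Summable fun d : ℕ => ‖(d : ℂ) * w ^ d‖ :=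
    (hasSum_coe_mul_geometric_of_norm_lt_one hw).summable.norm
  have h2 : Summable fun n : ℕ => ‖w ^ n‖ := by
    simp only [norm_pow]
    exact summable_geometric_of_lt_one (norm_nonneg _) hw
  have h3 := h2.mul_of_nonneg h1 (fun _ => norm_nonneg _) (fun _ => norm_nonneg _)
  refine Summable.of_norm_bounded h3 fun p => ?_
  obtain ⟨n, d⟩ := p
  simp only
  rcases Nat.eq_zero_or_pos d with rfl | hd
  · simp
  rw [norm_mul, norm_mul, norm_pow, norm_mul, norm_pow, norm_pow, norm_pow, mul_pow, ← pow_mul]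
  have e1 : ‖v‖ ^ d ≤ 1 := pow_le_one₀ (norm_nonneg _) hv
  have e2 : ‖w‖ ^ (α n * d) ≤ ‖w‖ ^ n * ‖w‖ ^ d := by
    rw [← pow_add]
    refine pow_le_pow_of_le_one (norm_nonneg _) hw.le ?_
    have := hα n
    calc n + d ≤ (n + 1) * d := by nlinarith
      _ ≤ α n * d := Nat.mul_le_mul_right _ this
  calc ‖(d : ℂ)‖ * (‖v‖ ^ d * ‖w‖ ^ (α n * d)) ≤ ‖(d : ℂ)‖ * (1 * (‖w‖ ^ n * ‖w‖ ^ d)) := by
        gcongr
    _ = ‖w‖ ^ n * (‖(d : ℂ)‖ * ‖w‖ ^ d) := by ring

include hα in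
theorem norm_mul_lt {v w : ℂ} (hv : ‖v‖ ≤ 1) (hw : ‖w‖ < 1) (n : ℕ) : ‖v * w ^ α n‖ < 1 := by
  rw [norm_mul, norm_pow]
  have e2 : ‖w‖ ^ α n < 1 := pow_lt_one₀ (norm_nonneg _) hw (by have := hα n; omega)
  calc ‖v‖ * ‖w‖ ^ α n ≤ 1 * ‖w‖ ^ α n := by gcongr
    _ < 1 := by rwa [one_mul]

theorem hasSum_prod_aux {g : ℕ × ℕ → ℂ} {k : ℕ → ℂ} (hg : Summable g)
    (hk : ∀ n, HasSum (fun d => g (n, d)) (k n)) :
    HasSum g (∑' n, k n) ∧ HasSum k (∑' n, k n) := by
  have h2 : HasSum k (∑' p, g p) := HasSum.prod_fiberwise hg.hasSum hk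
  have h3 := h2.tsum_eq
  rw [h3]
  exact ⟨hg.hasSum, h2⟩

include hα in
theorem hasSum_double {v w : ℂ} (hv : ‖v‖ ≤ 1) (hw : ‖w‖ < 1) :
    HasSum (fun p : ℕ × ℕ => (p.2 : ℂ) * (v * w ^ α p.1) ^ p.2) (∑' n, psi (v * w ^ α n)) ∧
    HasSum (fun n => psi (v * w ^ α n)) (∑' n, psi (v * w ^ α n)) := by
  have h1 := summable_double hα hv hw
  have h2 : ∀ n, HasSum (fun d : ℕ => (d : ℂ) * (v * w ^ α n) ^ d) (psi (v * w ^ α n)) :=
    fun n => hasSum_psi (norm_mul_lt hα hv hw n)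
  exact hasSum_prod_aux h1 h2

variable {R : Type*} [CommRing R]

/-- The series. -/
def serS (α : ℕ → ℕ) (v : R) : PowerSeries R := PowerSeries.mk fun k =>
  ∑ p ∈ (Finset.range (k + 1) ×ˢ Finset.range (k + 1)).filter (fun p : ℕ × ℕ => α p.1 * p.2 = k),
    (p.2 : R) * v ^ p.2

theorem constantCoeff_serS (v : R) : PowerSeries.constantCoeff (serS α v) = 0 := by
  rw [← PowerSeries.coeff_zero_eq_constantCoeff_apply, serS, PowerSeries.coeff_mk]
  refine Finset.sum_eq_zero fun p hp => ?_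
  rw [Finset.mem_filter, Finset.mem_product, Finset.mem_range, Finset.mem_range] at hp
  have : p.2 = 0 := by omega
  rw [this, Nat.cast_zero, zero_mul]

theorem map_serS {S : Type*} [CommRing S] (g : R →+* S) (v : R) :
    PowerSeries.map g (serS α v) = serS α (g v) := by
  ext k
  rw [PowerSeries.coeff_map, serS, serS, PowerSeries.coeff_mk, PowerSeries.coeff_mk, map_sum]
  refine Finset.sum_congr rfl fun p _ => ?_
  rw [map_mul, map_pow, map_natCast]

include hα in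
theorem hasExp_serS {φ : R →+* ℂ} {s : ℍ → ℂ} (hs : ∀ τ, ‖s τ‖ < 1) {v : R} (hv : ‖φ v‖ ≤ 1) :
    HasExp φ s (fun τ => ∑' n, psi (φ v * s τ ^ α n))
      (HahnSeries.ofPowerSeries ℤ R (serS α v)) := by
  refine hasExp_of_hasSum (fun p : ℕ × ℕ => (p.2 : R) * v ^ p.2) (fun p => α p.1 * p.2)
    (fun k => Finset.range (k + 1) ×ˢ Finset.range (k + 1)) (fun p hp => ?_) fun τ _ => ?_
  · have hd : p.2 ≠ 0 := by
      intro h
      apply hp
      rw [h, Nat.cast_zero, zero_mul]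
    rw [Finset.mem_product, Finset.mem_range, Finset.mem_range]
    have h1 := hα p.1
    have h2 : α p.1 ≤ α p.1 * p.2 := Nat.le_mul_of_pos_right _ (Nat.pos_of_ne_zero hd)
    have h3 : p.2 ≤ α p.1 * p.2 := Nat.le_mul_of_pos_left _ (by omega)
    omega
  · refine HasSum.congr2 (hasSum_double hα hv (hs τ)).1 (fun p => ?_) rfl
    rw [map_mul, map_pow, map_natCast, mul_pow, ← pow_mul]
    ring

end Double

/-- The normalized Weierstrass function. -/
def wpN (τ : ℍ) (z : ℂ) : ℂ := ((2 * π * I) ^ 2)⁻¹ * ℘[latT τ] z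

theorem qN_eq_ee (N : ℕ) [NeZero N] (τ : ℍ) : qN N τ = ee (τ / N) := by
  rw [qN_apply, ee, Function.Periodic.qParam]
  congr 1
  push_cast
  ring

theorem qN_pow_self (N : ℕ) [NeZero N] (τ : ℍ) : qN N τ ^ N = ee τ := by
  rw [qN_eq_ee, ← ee_nat_mul]
  congr 1
  have : (N : ℂ) ≠ 0 := by exact_mod_cast NeZero.ne N
  field_simp

theorem norm_ee_ofReal (x : ℝ) : ‖ee x‖ = 1 := by
  rw [ee, show (2 * π * I * x : ℂ) = ((2 * π * x : ℝ) : ℂ) * I by push_cast; ring]
  exact Complex.norm_exp_ofReal_mul_I _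

/-- Points not in the lattice. -/
theorem notMem_latT_of_pos {M a : ℕ} (ha : 0 < a) (haM : a < M) (x : ℝ) (τ : ℍ) :
    (a : ℂ) / M * τ + x ∉ (latT τ).lattice := by
  rw [mem_latT]
  rintro ⟨m, n, h⟩
  have hM : (0 : ℝ) < M := by exact_mod_cast ha.trans haM
  have h1 := congrArg Complex.im h
  have e1 : ((a : ℂ) / M * τ + x).im = (a : ℝ) / M * τ.im := by
    have : (a : ℂ) / M = ((a / M : ℝ) : ℂ) := by push_cast; rfl
    rw [this]
    simp
  rw [e1] at h1
  simp only [add_im, mul_im, intCast_re, intCast_im, zero_mul, add_zero] at h1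
  have h2 : (m : ℝ) = a / M := mul_right_cancel₀ τ.im_ne_zero h1
  have h3 : (0 : ℝ) < a / M := div_pos (by exact_mod_cast ha) hM
  have h4 : (a : ℝ) / M < 1 := (div_lt_one hM).mpr (by exact_mod_cast haM)
  rw [← h2] at h3 h4
  have h5 : (0 : ℤ) < m := by exact_mod_cast h3
  have h6 : m < (1 : ℤ) := by exact_mod_cast h4
  omega

theorem notMem_latT_real {x : ℝ} (hx : ee x ≠ 1) (τ : ℍ) : (x : ℂ) ∉ (latT τ).lattice := by
  rw [mem_latT]
  rintro ⟨m, n, h⟩
  have h1 := congrArg Complex.im h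
  simp only [add_im, mul_im, intCast_re, intCast_im, zero_mul, add_zero, ofReal_im] at h1
  have h2 : (m : ℝ) = 0 := by
    rcases mul_eq_zero.mp h1 with h | h
    · exact h
    · exact absurd h τ.im_ne_zero
  have h3 : m = 0 := by exact_mod_cast h2
  rw [h3, Int.cast_zero, zero_mul, zero_add] at h
  apply hx
  rw [← h, ee_int]

section X

variable {R : Type*} [CommRing R] {φ : R →+* ℂ}

/-- Expansion, first case. -/
theorem hasExp_wpN_pos {M a : ℕ} [NeZero M] (ha : 0 < a) (haM : a < M) (x : ℝ) (v : Rˣ)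
    (hv : φ v = ee x) :
    HasExp φ (qN M) (fun τ => wpN τ ((a : ℂ) / M * τ + x) - 1 / 12)
      (HahnSeries.ofPowerSeries ℤ R (serS (fun n => a + n * M) (v : R) +
        serS (fun n => (n + 1) * M - a) ((v⁻¹ : Rˣ) : R) - 2 * serS (fun n => (n + 1) * M) 1)) := by
  have hM : 0 < M := ha.trans haM
  have hM0 : (M : ℂ) ≠ 0 := by exact_mod_cast hM.ne'
  have hvi : φ ((v⁻¹ : Rˣ) : R) = (ee x)⁻¹ := by
    have h1 : φ (v : R) * φ ((v⁻¹ : Rˣ) : R) = 1 := by rw [← map_mul, Units.mul_inv, map_one]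
    rw [hv] at h1
    exact (eq_inv_of_mul_eq_one_right h1)
  have hα1 : ∀ n, n + 1 ≤ (fun n => a + n * M) n := fun n => by
    change n + 1 ≤ a + n * M
    nlinarith
  have hα2 : ∀ n, n + 1 ≤ (fun n => (n + 1) * M - a) n := fun n => by
    change n + 1 ≤ (n + 1) * M - a
    have : n + 1 + a ≤ (n + 1) * M := by nlinarith
    omega
  have hα3 : ∀ n, n + 1 ≤ (fun n => (n + 1) * M) n := fun n => by
    change n + 1 ≤ (n + 1) * M
    nlinarith
  have n1 : ‖φ (v : R)‖ ≤ 1 := by rw [hv, norm_ee_ofReal]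
  have n2 : ‖φ ((v⁻¹ : Rˣ) : R)‖ ≤ 1 := by rw [hvi, norm_inv, norm_ee_ofReal, inv_one]
  have n3 : ‖φ (1 : R)‖ ≤ 1 := by rw [map_one, norm_one]
  have hs := norm_qN_lt M
  have k1 := hasExp_serS hα1 hs n1
  have k2 := hasExp_serS hα2 hs n2
  have k3 := hasExp_serS hα3 hs n3
  have key := (k1.add k2).sub ((k3.add k3))
  rw [map_sub, map_add, two_mul, map_add]
  refine key.congr fun τ => ?_
  have hq : ∀ n, qN M τ ^ ((n + 1) * M) = ee τ ^ (n + 1) := fun n => by
    rw [mul_comm, pow_mul, qN_pow_self]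
  have hz := notMem_latT_of_pos ha haM x τ
  have hu : ee ((a : ℂ) / M * τ + x) = ee x * qN M τ ^ a := by
    rw [qN_eq_ee, ← ee_nat_mul, mul_comm, ← ee_add]
    congr 1
    ring
  have hexp := hasSum_wp_nat τ hz
  -- the three sums
  have s1 := (hasSum_double hα1 n1 (hs τ)).2
  have s2 := (hasSum_double hα2 n2 (hs τ)).2
  have s3 := (hasSum_double hα3 n3 (hs τ)).2
  have s1' := (hasSum_nat_add_iff' 1).mpr s1
  have e := (s1'.add s2).sub (s3.add s3)
  have huniq := e.unique (HasSum.congr2 hexp (fun n => ?_) rfl)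
  · simp only [Pi.add_apply, Pi.sub_apply]
    rw [Finset.range_one, Finset.sum_singleton] at huniq
    simp only [zero_mul, add_zero] at huniq
    rw [hv] at huniq ⊢
    rw [hu] at huniq
    rw [wpN]
    linear_combination huniq
  · have g1 : φ (v : R) * qN M τ ^ (a + (n + 1) * M) =
        ee ((a : ℂ) / M * τ + x) * ee τ ^ (n + 1) := by
      rw [hu, hv, pow_add, hq]; ring
    have g2 : φ ((v⁻¹ : Rˣ) : R) * qN M τ ^ ((n + 1) * M - a) =
        (ee ((a : ℂ) / M * τ + x))⁻¹ * ee τ ^ (n + 1) := by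
      rw [hu, hvi, mul_inv, ← hq n]
      have : (n + 1) * M = a + ((n + 1) * M - a) := by
        have : a ≤ (n + 1) * M := by nlinarith
        omega
      rw [show qN M τ ^ ((n + 1) * M) = qN M τ ^ a * qN M τ ^ ((n + 1) * M - a) by
        rw [← pow_add, ← this]]
      have h0 := pow_ne_zero a (qN_ne_zero M τ)
      field_simp
    have g3 : φ (1 : R) * qN M τ ^ ((n + 1) * M) = ee τ ^ (n + 1) := by
      rw [map_one, one_mul, hq]
    rw [g1, g2, g3]
    ring

/-- Expansion, second case. -/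
theorem hasExp_wpN_zero {M : ℕ} [NeZero M] (x : ℝ) (hx : ee x ≠ 1) (v : Rˣ) (c : R)
    (hv : φ v = ee x) (hc : φ c = psi (ee x)) :
    HasExp φ (qN M) (fun τ => wpN τ x - 1 / 12)
      (HahnSeries.ofPowerSeries ℤ R (PowerSeries.C c + serS (fun n => (n + 1) * M) (v : R) +
        serS (fun n => (n + 1) * M) ((v⁻¹ : Rˣ) : R) - 2 * serS (fun n => (n + 1) * M) 1)) := by
  have hM : 0 < M := Nat.pos_of_ne_zero (NeZero.ne M)
  have hvi : φ ((v⁻¹ : Rˣ) : R) = (ee x)⁻¹ := by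
    have h1 : φ (v : R) * φ ((v⁻¹ : Rˣ) : R) = 1 := by rw [← map_mul, Units.mul_inv, map_one]
    rw [hv] at h1
    exact (eq_inv_of_mul_eq_one_right h1)
  have hα3 : ∀ n, n + 1 ≤ (fun n => (n + 1) * M) n := fun n => by
    change n + 1 ≤ (n + 1) * M
    nlinarith
  have n1 : ‖φ (v : R)‖ ≤ 1 := by rw [hv, norm_ee_ofReal]
  have n2 : ‖φ ((v⁻¹ : Rˣ) : R)‖ ≤ 1 := by rw [hvi, norm_inv, norm_ee_ofReal, inv_one]
  have n3 : ‖φ (1 : R)‖ ≤ 1 := by rw [map_one, norm_one]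
  have hs := norm_qN_lt M
  have k0 : HasExp φ (qN M) (fun _ => φ c) (HahnSeries.C c : LaurentSeries R) := HasExp.const c
  have k1 := hasExp_serS hα3 hs n1
  have k2 := hasExp_serS hα3 hs n2
  have k3 := hasExp_serS hα3 hs n3
  have key := ((k0.add k1).add k2).sub ((k3.add k3))
  rw [map_sub, map_add, map_add, two_mul, map_add, HahnSeries.ofPowerSeries_C]
  refine key.congr fun τ => ?_
  have hq : ∀ n, qN M τ ^ ((n + 1) * M) = ee τ ^ (n + 1) := fun n => by
    rw [mul_comm, pow_mul, qN_pow_self]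
  have hz := notMem_latT_real hx τ
  have hexp := hasSum_wp_nat τ hz
  have s1 := (hasSum_double hα3 n1 (hs τ)).2
  have s2 := (hasSum_double hα3 n2 (hs τ)).2
  have s3 := (hasSum_double hα3 n3 (hs τ)).2
  have e := (s1.add s2).sub (s3.add s3)
  have huniq := e.unique (HasSum.congr2 hexp (fun n => ?_) rfl)
  · simp only [Pi.add_apply, Pi.sub_apply]
    rw [hc]
    rw [wpN]
    linear_combination huniq
  · have g1 : φ (v : R) * qN M τ ^ ((n + 1) * M) = ee x * ee τ ^ (n + 1) := by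
      rw [hv, hq]
    have g2 : φ ((v⁻¹ : Rˣ) : R) * qN M τ ^ ((n + 1) * M) = (ee x)⁻¹ * ee τ ^ (n + 1) := by
      rw [hvi, hq]
    have g3 : φ (1 : R) * qN M τ ^ ((n + 1) * M) = ee τ ^ (n + 1) := by
      rw [map_one, one_mul, hq]
    rw [g1, g2, g3]
    ring

end X

end Fermat.Agent.Tor
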