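import Fermat.Agent.Tor.Series
import Fermat.Agent.ModFun.Level

/-!
# Transformation of the torsion values
-/

set_option autoImplicit false

open UpperHalfPlane hiding I I_re I_im
open Complex Filter Topology ModularForm
open scoped Real PeriodPair Manifold MatrixGroups ModularForm

noncomputable section

namespace Fermat.Agent.Tor

open Fermat.Agent.ModFun

theorem wp_scale {L L' : PeriodPair} {u : ℂ} (hu : u ≠ 0)
    (h : ∀ z, u * z ∈ L'.lattice ↔ z ∈ L.lattice) (z : ℂ) :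
    ℘[L'] (u * z) = (u ^ 2)⁻¹ * ℘[L] z := by
  have h1 := (L.hasSum_weierstrassP z).mul_left (u ^ 2)⁻¹
  let e : L.lattice ≃ L'.lattice :=
    { toFun := fun l => ⟨u * l, (h l).mpr l.2⟩
      invFun := fun l => ⟨u⁻¹ * l, (h _).mp (by rw [mul_inv_cancel_left₀ hu]; exact l.2)⟩
      left_inv := fun l => Subtype.ext (inv_mul_cancel_left₀ hu _)
      right_inv := fun l => Subtype.ext (mul_inv_cancel_left₀ hu _) }
  have h2 := e.hasSum_iff.mpr (L'.hasSum_weierstrassP (u * z))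
  refine h2.unique (HasSum.congr2 h1 (fun l => ?_) rfl)
  change 1 / (u * z - u * (l : ℂ)) ^ 2 - 1 / (u * (l : ℂ)) ^ 2 =
    (u ^ 2)⁻¹ * (1 / (z - (l : ℂ)) ^ 2 - 1 / (l : ℂ) ^ 2)
  rw [← mul_sub, mul_pow, mul_pow]
  simp only [one_div, mul_inv, mul_sub]

theorem mem_latT_smul (γ : SL(2, ℤ)) (τ : ℍ) (z : ℂ) :
    ((γ 1 0 : ℂ) * τ + γ 1 1)⁻¹ * z ∈ (latT (γ • τ)).lattice ↔ z ∈ (latT τ).lattice := by
  have hd := denom_SL_ne_zero γ τ
  have hdet := γ.det_coe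
  rw [Matrix.det_fin_two] at hdet
  have hdet' : (γ 0 0 : ℂ) * γ 1 1 - γ 0 1 * γ 1 0 = 1 := by exact_mod_cast hdet
  rw [mem_latT, mem_latT, coe_smul_SL]
  generalize hD : (γ 1 0 : ℂ) * τ + γ 1 1 = D at hd ⊢
  constructor
  · rintro ⟨m, n, h⟩
    refine ⟨m * γ 0 0 + n * γ 1 0, m * γ 0 1 + n * γ 1 1, ?_⟩
    rw [eq_comm, inv_mul_eq_iff_eq_mul₀ hd] at h
    rw [h, mul_add, mul_left_comm, mul_div_cancel₀ _ hd]
    push_cast
    linear_combination (n : ℂ) * hD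
  · rintro ⟨m, n, h⟩
    refine ⟨m * γ 1 1 - n * γ 1 0, n * γ 0 0 - m * γ 0 1, ?_⟩
    rw [← h, eq_inv_mul_iff_mul_eq₀ hd, mul_add, mul_left_comm, mul_div_cancel₀ _ hd]
    push_cast
    linear_combination (m * (τ : ℂ) + n) * hdet' - (n * (γ 0 0 : ℂ) - m * γ 0 1) * hD

/-- The transformation. -/
theorem wpN_smul (γ : SL(2, ℤ)) (τ : ℍ) (z : ℂ) :
    wpN (γ • τ) (((γ 1 0 : ℂ) * τ + γ 1 1)⁻¹ * z) = ((γ 1 0 : ℂ) * τ + γ 1 1) ^ 2 * wpN τ z := by
  have hd := denom_SL_ne_zero γ τ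
  rw [wpN, wpN, wp_scale (inv_ne_zero hd) (mem_latT_smul γ τ), inv_pow, inv_inv]
  ring

theorem wpN_add (τ : ℍ) (z : ℂ) (m n : ℤ) : wpN τ (z + (m * (τ : ℂ) + n)) = wpN τ z := by
  rw [wpN, wpN]
  congr 1
  exact (latT τ).weierstrassP_add_coe z ⟨m * (τ : ℂ) + n, mem_latT.mpr ⟨m, n, rfl⟩⟩

/-- The torsion values. -/
def wpT (N : ℕ) (a b : ℤ) (τ : ℍ) : ℂ := wpN τ (((a : ℂ) * τ + b) / N)

theorem wpT_congr {N : ℕ} [NeZero N] {a b a' b' : ℤ} (ha : (N : ℤ) ∣ a - a') (hb : (N : ℤ) ∣ b - b') :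
    wpT N a b = wpT N a' b' := by
  obtain ⟨m, hm⟩ := ha
  obtain ⟨n, hn⟩ := hb
  have hN : (N : ℂ) ≠ 0 := by exact_mod_cast NeZero.ne N
  funext τ
  rw [wpT, wpT, ← wpN_add τ (((a' : ℂ) * τ + b') / N) m n]
  congr 1
  have e1 : (a : ℂ) = a' + N * m := by
    have : a = a' + N * m := by linarith
    exact_mod_cast this
  have e2 : (b : ℂ) = b' + N * n := by
    have : b = b' + N * n := by linarith
    exact_mod_cast this
  rw [e1, e2]
  field_simp
  ring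

theorem wpT_smul {N : ℕ} (a b : ℤ) (γ : SL(2, ℤ)) (τ : ℍ) :
    wpT N a b (γ • τ) = ((γ 1 0 : ℂ) * τ + γ 1 1) ^ 2 *
      wpT N (a * γ 0 0 + b * γ 1 0) (a * γ 0 1 + b * γ 1 1) τ := by
  have hd := denom_SL_ne_zero γ τ
  rw [wpT, wpT, ← wpN_smul, coe_smul_SL]
  congr 1
  rw [eq_inv_mul_iff_mul_eq₀ hd, ← mul_div_assoc, mul_add, mul_left_comm, mul_div_cancel₀ _ hd]
  congr 1
  push_cast
  ring

theorem discriminant_smul' (γ : SL(2, ℤ)) (τ : ℍ) :
    ModularForm.discriminant (γ • τ) =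
      ((γ 1 0 : ℂ) * τ + γ 1 1) ^ 12 * ModularForm.discriminant τ := by
  have h := discriminant_smul γ τ
  rw [ModularGroup.denom_apply] at h
  exact_mod_cast h

theorem E₄_smul' (γ : SL(2, ℤ)) (τ : ℍ) :
    E₄ (γ • τ) = ((γ 1 0 : ℂ) * τ + γ 1 1) ^ 4 * E₄ τ := by
  have h := smul_of_SL E₄ γ τ
  rw [ModularGroup.denom_apply] at h
  exact_mod_cast h

theorem E₆_smul' (γ : SL(2, ℤ)) (τ : ℍ) :
    E₆ (γ • τ) = ((γ 1 0 : ℂ) * τ + γ 1 1) ^ 6 * E₆ τ := by
  have h := smul_of_SL E₆ γ τ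
  rw [ModularGroup.denom_apply] at h
  exact_mod_cast h

/-- The weight zero function `E₄E₆/Δ · (weight two)`. -/
def kap (τ : ℍ) : ℂ := 12 * (E₄ τ * E₆ τ / ModularForm.discriminant τ)

/-- The weight zero functions. -/
def gT (N : ℕ) (a b : ℤ) : ℍ → ℂ := fun τ => wpT N a b τ * kap τ

theorem kap_smul (γ : SL(2, ℤ)) (τ : ℍ) :
    kap (γ • τ) * ((γ 1 0 : ℂ) * τ + γ 1 1) ^ 2 = kap τ := by
  have hd := denom_SL_ne_zero γ τ
  have hD := discriminant_ne_zero τ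
  rw [kap, kap, E₄_smul', E₆_smul', discriminant_smul']
  field_simp

theorem gT_smul {N : ℕ} (a b : ℤ) (γ : SL(2, ℤ)) (τ : ℍ) :
    gT N a b (γ • τ) = gT N (a * γ 0 0 + b * γ 1 0) (a * γ 0 1 + b * γ 1 1) τ := by
  simp only [gT]
  rw [wpT_smul, ← kap_smul γ τ]
  ring

theorem gT_congr {N : ℕ} [NeZero N] {a b a' b' : ℤ} (ha : (N : ℤ) ∣ a - a') (hb : (N : ℤ) ∣ b - b') :
    gT N a b = gT N a' b' := by
  funext τ
  simp only [gT]
  rw [wpT_congr ha hb]

section Holo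

variable {R : Type*} [CommRing R] {φ : R →+* ℂ}

/-- A power series in `q` is holomorphic. -/
theorem mdiff_of_hasExp {M : ℕ} [NeZero M] {f : ℍ → ℂ} {P : PowerSeries R}
    (h : HasExp φ (qN M) f (HahnSeries.ofPowerSeries ℤ R P)) : MDiff f := by
  have h1 : ∀ τ : ℍ, HasSum (fun n : ℕ => φ (P.coeff n) * qN M τ ^ n) (f τ) := by
    intro τ
    have h2 := h.hasSum_shift (k := 0) (fun m hm => ModularCurve.ofPowerSeries_coeff_of_neg _ hm) τ
      (qN_ne_zero M τ)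
    refine HasSum.congr2 h2 (fun n => ?_) (by simp)
    rw [zero_add, HahnSeries.ofPowerSeries_apply_coeff]
  set c : ℕ → ℂ := fun n => φ (P.coeff n) with hc
  have hrad : 1 ≤ (FormalMultilinearSeries.ofScalars ℂ c : FormalMultilinearSeries ℂ ℂ ℂ).radius := by
    refine le_of_forall_lt_imp_le_of_dense fun r hr ↦ ?_
    rcases eq_or_ne r 0 with rfl | hr'
    · simp
    · lift r to NNReal using hr.ne_top
      apply FormalMultilinearSeries.le_radius_of_summable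
      obtain ⟨τ, hτ⟩ := (isParam_qN M).surj (r : ℂ) (by exact_mod_cast hr') (by simpa using hr)
      have h1 := (h1 τ).summable.norm
      rw [hτ] at h1
      simpa [smul_eq_mul, norm_mul, mul_comm, mul_left_comm, mul_assoc] using h1
  have h2 : HasFPowerSeriesOnBall
      (FormalMultilinearSeries.ofScalars ℂ c : FormalMultilinearSeries ℂ ℂ ℂ).sum
      (FormalMultilinearSeries.ofScalars ℂ c) 0
      (FormalMultilinearSeries.ofScalars ℂ c : FormalMultilinearSeries ℂ ℂ ℂ).radius :=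
    (FormalMultilinearSeries.ofScalars ℂ c).hasFPowerSeriesOnBall
      (lt_of_lt_of_le one_pos hrad)
  have h3 := h2.differentiableOn
  rw [UpperHalfPlane.mdifferentiable_iff]
  have h4 : DifferentiableOn ℂ (fun z : ℂ => Function.Periodic.qParam (M : ℝ) z)
      upperHalfPlaneSet := (Function.Periodic.differentiable_qParam).differentiableOn
  have h5 : Set.MapsTo (fun z : ℂ => Function.Periodic.qParam (M : ℝ) z) upperHalfPlaneSet
      (Metric.eball 0
        (FormalMultilinearSeries.ofScalars ℂ c : FormalMultilinearSeries ℂ ℂ ℂ).radius) := by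
    intro z hz
    refine Metric.eball_subset_eball hrad ?_
    rw [Metric.mem_eball, edist_zero_right]
    have := norm_qN_lt M ⟨z, hz⟩
    rw [qN_apply] at this
    rw [← ofReal_norm]
    exact ENNReal.ofReal_lt_one.mpr this
  refine (h3.comp h4 h5).congr ?_
  intro z hz
  simp only [Function.comp_apply, ofComplex_apply_of_im_pos hz]
  rw [← (h1 ⟨z, hz⟩).tsum_eq]
  unfold FormalMultilinearSeries.sum
  refine tsum_congr fun n => ?_
  simp [mul_comm, qN_apply, hc]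

end Holo

end Fermat.Agent.Tor
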