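import Fermat.Agent.Tor.Cot

/-!
# The expansion of the Weierstrass function
-/

set_option autoImplicit false

open UpperHalfPlane hiding I I_re I_im
open Complex Filter Topology
open scoped Real PeriodPair

noncomputable section

namespace Fermat.Agent.Tor

theorem HasSum.congr2 {β : Type*} {f g : β → ℂ} {a b : ℂ} (h : HasSum f a) (hf : ∀ n, g n = f n)
    (hab : b = a) : HasSum g b := by
  rw [hab, funext hf]
  exact h

/-- The lattice `ℤτ + ℤ`. -/
def latT (τ : ℍ) : PeriodPair where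
  ω₁ := τ
  ω₂ := 1
  indep := by
    rw [LinearIndependent.pair_iff]
    intro s t h
    have h1 : s * τ.im = 0 := by
      have := congrArg Complex.im h
      simpa using this
    have hs : s = 0 := by
      rcases mul_eq_zero.mp h1 with h | h
      · exact h
      · exact absurd h τ.im_ne_zero
    refine ⟨hs, ?_⟩
    have := congrArg Complex.re h
    simpa [hs] using this

theorem mem_latT {τ : ℍ} {z : ℂ} : z ∈ (latT τ).lattice ↔ ∃ m n : ℤ, m * (τ : ℂ) + n = z := by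
  rw [PeriodPair.mem_lattice]
  simp [latT]

/-- The exponential. -/
def ee (z : ℂ) : ℂ := cexp (2 * π * I * z)

theorem ee_add (z w : ℂ) : ee (z + w) = ee z * ee w := by
  rw [ee, ee, ee, ← Complex.exp_add]; congr 1; ring

theorem ee_neg (z : ℂ) : ee (-z) = (ee z)⁻¹ := by
  rw [ee, ee, ← Complex.exp_neg]; congr 1; ring

theorem ee_ne_zero (z : ℂ) : ee z ≠ 0 := Complex.exp_ne_zero _

theorem ee_nat_mul (n : ℕ) (z : ℂ) : ee (n * z) = ee z ^ n := by
  rw [ee, ee, ← Complex.exp_nat_mul]; congr 1; ring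

theorem ee_int (n : ℤ) : ee n = 1 := by
  rw [ee, Complex.exp_eq_one_iff]
  exact ⟨n, by ring⟩

theorem norm_ee_lt (τ : ℍ) : ‖ee τ‖ < 1 := norm_exp_two_pi_I_lt_one τ

theorem tsum_hasSum_psi {z : ℂ} (hz : ∀ n : ℤ, z ≠ n) :
    HasSum (fun n : ℤ => 1 / (z - n) ^ 2) ((2 * π * I) ^ 2 * psi (ee z)) := by
  have h1 := (summable_sq z).hasSum
  rw [tsum_eq_psi hz] at h1
  have h2 := (Equiv.neg ℤ).hasSum_iff.mpr h1
  refine HasSum.congr2 h2 (fun n => ?_) rfl
  change _ = 1 / (z + ((-n : ℤ) : ℂ)) ^ 2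
  rw [Int.cast_neg, sub_eq_add_neg]

/-- The constants. -/
def cst (τ : ℍ) (n : ℤ) : ℂ := if n = 0 then (π : ℂ) ^ 2 / 3 else (2 * π * I) ^ 2 * psi (ee (n * τ))

theorem int_mul_ne {τ : ℍ} {n : ℤ} (hn : n ≠ 0) (m : ℤ) : (n : ℂ) * τ ≠ m := by
  intro h
  have h1 := congrArg Complex.im h
  simp only [mul_im, intCast_re, intCast_im, zero_mul, add_zero] at h1
  rcases mul_eq_zero.mp h1 with h2 | h2
  · exact hn (by exact_mod_cast h2)
  · exact τ.im_ne_zero h2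

theorem hasSum_cst (τ : ℍ) (n : ℤ) :
    HasSum (fun m : ℤ => 1 / ((n : ℂ) * τ + m) ^ 2) (cst τ n) := by
  have h1 := (summable_sq (n * τ)).hasSum
  by_cases hn : n = 0
  · subst hn
    rw [cst, if_pos rfl, ← tsum_zero]
    simpa using h1
  · rw [tsum_eq_psi (int_mul_ne hn)] at h1
    rw [cst, if_neg hn]
    exact h1

/-- The double sum. -/
theorem hasSum_wp (τ : ℍ) {z : ℂ} (hz : z ∉ (latT τ).lattice) :
    HasSum (fun n : ℤ => (2 * π * I) ^ 2 * psi (ee (z - n * τ)) - cst τ n) (℘[latT τ] z) := by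
  have h1 := (latT τ).hasSum_weierstrassP z
  have h2 := (latT τ).latticeEquivProd.symm.toEquiv.hasSum_iff.mpr h1
  refine h2.prod_fiberwise fun n => ?_
  have hne : ∀ m : ℤ, z - n * τ ≠ m := by
    intro m h
    exact hz (mem_latT.mpr ⟨n, m, by rw [← h]; ring⟩)
  have h3 := (tsum_hasSum_psi hne).sub (hasSum_cst τ n)
  refine HasSum.congr2 h3 (fun m => ?_) rfl
  change 1 / (z - ((latT τ).latticeEquivProd.symm (n, m)).1) ^ 2 -
    1 / ((latT τ).latticeEquivProd.symm (n, m)).1 ^ 2 = _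
  rw [PeriodPair.latticeEquiv_symm_apply]
  simp only [latT, mul_one]
  congr 2
  ring

theorem const_eq : (2 * (π : ℂ) * I) ^ 2 * (1 / 12) = -((π : ℂ) ^ 2 / 3) := by
  rw [mul_pow, mul_pow, I_sq]; ring

/-- **The expansion of the Weierstrass function.** -/
theorem hasSum_wp_nat (τ : ℍ) {z : ℂ} (hz : z ∉ (latT τ).lattice) :
    HasSum (fun n : ℕ => psi (ee z * ee τ ^ (n + 1)) + psi ((ee z)⁻¹ * ee τ ^ (n + 1)) -
      2 * psi (ee τ ^ (n + 1)))
      (((2 * π * I) ^ 2)⁻¹ * ℘[latT τ] z - 1 / 12 - psi (ee z)) := by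
  have h0 : ((2 * (π : ℂ) * I) ^ 2) ≠ 0 := pow_ne_zero 2 Complex.two_pi_I_ne_zero
  have h1 := (hasSum_nat_add_iff' 1).mpr (hasSum_wp τ hz).nat_add_neg
  have h2 := h1.mul_left ((2 * (π : ℂ) * I) ^ 2)⁻¹
  have e1 : ∀ n : ℕ, ee (z - ((n + 1 : ℕ) : ℤ) * τ) = ((ee z)⁻¹ * ee τ ^ (n + 1))⁻¹ := by
    intro n
    rw [sub_eq_add_neg, ee_add, ee_neg, mul_inv, inv_inv, ← ee_nat_mul]
    norm_cast
  have e2 : ∀ n : ℕ, ee (z - (-((n + 1 : ℕ) : ℤ) : ℤ) * τ) = ee z * ee τ ^ (n + 1) := by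
    intro n
    rw [← ee_nat_mul, ← ee_add]
    congr 1
    push_cast
    ring
  have e3 : ∀ n : ℕ, cst τ ((n + 1 : ℕ) : ℤ) = (2 * (π : ℂ) * I) ^ 2 * psi (ee τ ^ (n + 1)) := by
    intro n
    rw [cst, if_neg (by omega), ← ee_nat_mul]
    norm_cast
  have e4 : ∀ n : ℕ, cst τ (-((n + 1 : ℕ) : ℤ)) = (2 * (π : ℂ) * I) ^ 2 * psi (ee τ ^ (n + 1)) := by
    intro n
    rw [cst, if_neg (by omega), ← psi_inv, ← ee_nat_mul, ← ee_neg]
    congr 3
    push_cast
    ring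
  refine HasSum.congr2 h2 (fun n => ?_) ?_
  · rw [e1, e2, e3, e4, psi_inv]
    field_simp
    ring
  · rw [Finset.range_one, Finset.sum_singleton, Nat.cast_zero, neg_zero, Int.cast_zero,
      zero_mul, sub_zero]
    rw [cst, if_pos rfl]
    have h3 := const_eq
    have h4 : (π : ℂ) ^ 2 / 3 = -((2 * (π : ℂ) * I) ^ 2 * (1 / 12)) := by rw [h3, neg_neg]
    rw [h4]
    field_simp
    ring

end Fermat.Agent.Tor
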